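import Fermat.Agent.Pic.Dual

/-!
# Isomorphism classes of bundles

Tensor products, inverses, twists and change of parameters are compatible with isomorphisms, and
obey the rules of an abelian group.
-/

set_option autoImplicit false

noncomputable section

universe u

open scoped TensorProduct

namespace FermatAgent.Pic

variable {k : Type u} [Field k] {C : Curve2 k} {A B D : Type u} [CommRing A] [Algebra k A]
  [CommRing B] [Algebra k B] [CommRing D] [Algebra k D]

namespace Curve2

theorem map01_id (s : C.S01 A) : C.map01 (AlgHom.id k A) s = s := by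
  induction s using TensorProduct.induction_on with
  | zero => simp
  | tmul a r => simp [map01]
  | add a b ha hb => simp [ha, hb]

theorem map01_comp (f : A →ₐ[k] B) (g : B →ₐ[k] D) (s : C.S01 A) :
    C.map01 g (C.map01 f s) = C.map01 (g.comp f) s := by
  induction s using TensorProduct.induction_on with
  | zero => simp
  | tmul a r => simp [map01]
  | add a b ha hb => simp [ha, hb]

theorem map0_xA (f : A →ₐ[k] B) : C.map0 f (C.xA A) = C.xA B := by simp [map0, xA]

theorem map01_tA (f : A →ₐ[k] B) : C.map01 f (C.tA A) = C.tA B := by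
  rw [tA, map01_res0, map0_xA]; rfl

end Curve2

namespace Bdl

variable {E E' F F' G : Bdl C A}

/-- A linear equivalence matching the generators of both lattices is an isomorphism. -/
def Iso.mk' (e : E.M ≃ₗ[C.S01 A] E'.M) (h0 : ∀ i, e (E.l0.p i) ∈ E'.L0)
    (h0' : ∀ i, e.symm (E'.l0.p i) ∈ E.L0) (h1 : ∀ i, e (E.l1.p i) ∈ E'.L1)
    (h1' : ∀ i, e.symm (E'.l1.p i) ∈ E.L1) : Iso E E' where
  e := e
  map_L0 m := by
    refine ⟨fun h => ?_, fun h => ?_⟩
    · obtain ⟨c, hc⟩ := E'.mem_L0_iff_exists.mp h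
      rw [← e.symm_apply_apply m, hc, map_sum]
      exact sum_mem fun i _ => by rw [map_smul]; exact E.res0_smul_mem _ (h0' i)
    · obtain ⟨c, rfl⟩ := E.mem_L0_iff_exists.mp h
      rw [map_sum]
      exact sum_mem fun i _ => by rw [map_smul]; exact E'.res0_smul_mem _ (h0 i)
  map_L1 m := by
    refine ⟨fun h => ?_, fun h => ?_⟩
    · obtain ⟨c, hc⟩ := E'.mem_L1_iff_exists.mp h
      rw [← e.symm_apply_apply m, hc, map_sum]
      exact sum_mem fun i _ => by rw [map_smul]; exact E.res1_smul_mem _ (h1' i)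
    · obtain ⟨c, rfl⟩ := E.mem_L1_iff_exists.mp h
      rw [map_sum]
      exact sum_mem fun i _ => by rw [map_smul]; exact E'.res1_smul_mem _ (h1 i)

/-- The identity isomorphism. -/
def Iso.refl (E : Bdl C A) : Iso E E :=
  ⟨LinearEquiv.refl _ _, fun _ => Iff.rfl, fun _ => Iff.rfl⟩

/-- The inverse isomorphism. -/
def Iso.symm (i : Iso E E') : Iso E' E :=
  ⟨i.e.symm, fun m => by rw [← i.map_L0, LinearEquiv.apply_symm_apply],
    fun m => by rw [← i.map_L1, LinearEquiv.apply_symm_apply]⟩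

/-- Composition of isomorphisms. -/
def Iso.trans (i : Iso E E') (j : Iso E' F) : Iso E F :=
  ⟨i.e.trans j.e, fun m => (j.map_L0 _).trans (i.map_L0 m),
    fun m => (j.map_L1 _).trans (i.map_L1 m)⟩

/-- Tensors of sections on the first chart are sections of the tensor product there. -/
theorem tmul_mem_L0 {m : E.M} {m' : F.M} (hm : m ∈ E.L0) (hm' : m' ∈ F.L0) :
    m ⊗ₜ[C.S01 A] m' ∈ (E.tensor F).L0 :=
  mem_L0.mpr fun _ => mul_mem (mem_L0.mp hm _) (mem_L0.mp hm' _)

/-- Tensors of sections on the second chart are sections of the tensor product there. -/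
theorem tmul_mem_L1 {m : E.M} {m' : F.M} (hm : m ∈ E.L1) (hm' : m' ∈ F.L1) :
    m ⊗ₜ[C.S01 A] m' ∈ (E.tensor F).L1 :=
  mem_L1.mpr fun _ => mul_mem (mem_L1.mp hm _) (mem_L1.mp hm' _)

/-- One is a section of the trivial bundle on the first chart. -/
theorem one_mem_L0 : (1 : C.S01 A) ∈ (one C A).L0 :=
  mem_L0.mpr fun _ => ⟨1, map_one _⟩

theorem one_mem_L1 : (1 : C.S01 A) ∈ (one C A).L1 :=
  mem_L1.mpr fun _ => ⟨1, map_one _⟩

/-- Tensor products respect isomorphisms. -/
def Iso.tensor (i : Iso E E') (j : Iso F F') : Iso (E.tensor F) (E'.tensor F') :=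
  Iso.mk' (TensorProduct.congr i.e j.e)
    (fun _ => tmul_mem_L0 ((i.map_L0 _).mpr (E.p_mem_L0 _)) ((j.map_L0 _).mpr (F.p_mem_L0 _)))
    (fun _ => tmul_mem_L0 ((i.symm.map_L0 _).mpr (E'.p_mem_L0 _))
      ((j.symm.map_L0 _).mpr (F'.p_mem_L0 _)))
    (fun _ => tmul_mem_L1 ((i.map_L1 _).mpr (E.p_mem_L1 _)) ((j.map_L1 _).mpr (F.p_mem_L1 _)))
    (fun _ => tmul_mem_L1 ((i.symm.map_L1 _).mpr (E'.p_mem_L1 _))
      ((j.symm.map_L1 _).mpr (F'.p_mem_L1 _)))

/-- Inverses respect isomorphisms. -/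
def Iso.dual (i : Iso E E') : Iso E.dual E'.dual where
  e := i.symm.e.dualMap
  map_L0 f := by
    rw [mem_L0_dual, mem_L0_dual]
    constructor
    · intro h m hm
      have := h _ ((i.map_L0 m).mpr hm)
      rwa [show E'.ofD _ (i.e m) = E.ofD f (i.e.symm (i.e m)) from rfl, i.e.symm_apply_apply]
        at this
    · exact fun h m hm => h _ ((i.symm.map_L0 m).mpr hm)
  map_L1 f := by
    rw [mem_L1_dual, mem_L1_dual]
    constructor
    · intro h m hm
      have := h _ ((i.map_L1 m).mpr hm)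
      rwa [show E'.ofD _ (i.e m) = E.ofD f (i.e.symm (i.e m)) from rfl, i.e.symm_apply_apply]
        at this
    · exact fun h m hm => h _ ((i.symm.map_L1 m).mpr hm)

/-- Twists respect isomorphisms. -/
def Iso.twist (i : Iso E E') (n : ℕ) : Iso (E.twist n) (E'.twist n) where
  e := i.e
  map_L0 := i.map_L0
  map_L1 m := by
    refine (mem_L1_twist E').trans (((Iff.of_eq ?_).trans (i.map_L1 _)).trans (mem_L1_twist E).symm)
    exact congrArg (· ∈ E'.L1) (map_smul i.e _ m).symm

/-- The tensor product is commutative. -/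
def tensorComm (E F : Bdl C A) : Iso (E.tensor F) (F.tensor E) :=
  Iso.mk' (TensorProduct.comm _ _ _) (fun _ => tmul_mem_L0 (F.p_mem_L0 _) (E.p_mem_L0 _))
    (fun _ => tmul_mem_L0 (E.p_mem_L0 _) (F.p_mem_L0 _))
    (fun _ => tmul_mem_L1 (F.p_mem_L1 _) (E.p_mem_L1 _))
    (fun _ => tmul_mem_L1 (E.p_mem_L1 _) (F.p_mem_L1 _))

/-- The tensor product is associative. -/
def tensorAssoc (E F G : Bdl C A) : Iso ((E.tensor F).tensor G) (E.tensor (F.tensor G)) :=
  Iso.mk' (TensorProduct.assoc _ _ _ _)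
    (fun _ => tmul_mem_L0 (E.p_mem_L0 _) (tmul_mem_L0 (F.p_mem_L0 _) (G.p_mem_L0 _)))
    (fun _ => tmul_mem_L0 (tmul_mem_L0 (E.p_mem_L0 _) (F.p_mem_L0 _)) (G.p_mem_L0 _))
    (fun _ => tmul_mem_L1 (E.p_mem_L1 _) (tmul_mem_L1 (F.p_mem_L1 _) (G.p_mem_L1 _)))
    (fun _ => tmul_mem_L1 (tmul_mem_L1 (E.p_mem_L1 _) (F.p_mem_L1 _)) (G.p_mem_L1 _))

/-- The trivial bundle is neutral. -/
def oneTensor (E : Bdl C A) : Iso ((one C A).tensor E) E :=
  Iso.mk' (TensorProduct.lid (C.S01 A) E.M)
    (fun i => by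
      show (1 : C.S01 A) • E.l0.p _ ∈ E.L0
      rw [one_smul]; exact E.p_mem_L0 _)
    (fun i => tmul_mem_L0 one_mem_L0 (E.p_mem_L0 i))
    (fun i => by
      show (1 : C.S01 A) • E.l1.p _ ∈ E.L1
      rw [one_smul]; exact E.p_mem_L1 _)
    (fun i => tmul_mem_L1 one_mem_L1 (E.p_mem_L1 i))

/-- Rank one: the diagonal of the matrix of the first lattice sums to one. -/
theorem sum_φ_p_L0 (E : Bdl C A) : ∑ i, E.l0.φ i (E.l0.p i) = 1 :=
  sum_φ_p_L1 E.swap

/-- A bundle tensored with its inverse is trivial. -/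
def dualTensor (E : Bdl C A) : Iso (E.dual.tensor E) (one C A) := by
  refine Iso.mk' (Module.Invertible.linearEquiv (C.S01 A) E.M) (fun j => ?_) (fun i => ?_)
    (fun j => ?_) (fun i => ?_)
  · exact mem_L0_one'.mpr (mem_L0.mp (E.p_mem_L0 _) _)
  · have h : (Module.Invertible.linearEquiv (C.S01 A) E.M).symm (1 : C.S01 A) =
        ∑ j, (E.l0.φ j : Module.Dual (C.S01 A) E.M) ⊗ₜ[C.S01 A] E.l0.p j := by
      rw [LinearEquiv.symm_apply_eq, map_sum]
      exact (E.sum_φ_p_L0).symm
    show (Module.Invertible.linearEquiv (C.S01 A) E.M).symm (1 : C.S01 A) ∈ (E.dual.tensor E).L0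
    rw [h]
    exact sum_mem fun j _ => tmul_mem_L0 (E.φ_mem_L0_dual j) (E.p_mem_L0 j)
  · exact mem_L1_one'.mpr (mem_L1.mp (E.p_mem_L1 _) _)
  · have h : (Module.Invertible.linearEquiv (C.S01 A) E.M).symm (1 : C.S01 A) =
        ∑ j, (E.l1.φ j : Module.Dual (C.S01 A) E.M) ⊗ₜ[C.S01 A] E.l1.p j := by
      rw [LinearEquiv.symm_apply_eq, map_sum]
      exact (E.sum_φ_p_L1).symm
    show (Module.Invertible.linearEquiv (C.S01 A) E.M).symm (1 : C.S01 A) ∈ (E.dual.tensor E).L1
    rw [h]
    exact sum_mem fun j _ => tmul_mem_L1 (E.φ_mem_L1_dual j) (E.p_mem_L1 j)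

theorem smul_mem_L1_twist_one (n : ℕ) : (C.tA A ^ n : C.S01 A) ∈ ((one C A).twist n).L1 := by
  refine (mem_L1_twist (one C A)).mpr ?_
  show C.res1 A (C.yA A) ^ n * C.tA A ^ n ∈ (one C A).L1
  rw [← mul_pow, mul_comm, C.tA_mul_yA, one_pow]
  exact one_mem_L1

/-- A twist is the tensor product with the twisted trivial bundle. -/
def twistTensor (E : Bdl C A) (n : ℕ) : Iso (((one C A).twist n).tensor E) (E.twist n) :=
  Iso.mk' (TensorProduct.lid (C.S01 A) E.M)
    (fun i => by
      show (1 : C.S01 A) • E.l0.p _ ∈ E.L0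
      rw [one_smul]; exact E.p_mem_L0 _)
    (fun i => tmul_mem_L0 ((L0_twist (one C A) n).ge one_mem_L0) (E.p_mem_L0 i))
    (fun i => by
      show (C.tA A ^ n * 1) • E.l1.p _ ∈ (E.twist n).L1
      rw [mul_one]
      exact (E.twist n).p_mem_L1 _)
    (fun i => by
      show (1 : C.S01 A) ⊗ₜ[C.S01 A] (C.tA A ^ n • E.l1.p i) ∈ _
      rw [TensorProduct.tmul_smul, TensorProduct.smul_tmul', smul_eq_mul, mul_one]
      exact tmul_mem_L1 (smul_mem_L1_twist_one n) (E.p_mem_L1 i))

/-- The image of an element under change of parameters. -/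
def mapIn (f : A →ₐ[k] B) (E : Bdl C A) : E.M →+ (E.map f).M :=
  letI := (C.map01 f).toRingHom.toAlgebra
  { toFun := fun m => ((1 : C.S01 B) ⊗ₜ[C.S01 A] m :)
    map_zero' := TensorProduct.tmul_zero _ _
    map_add' := fun _ _ => TensorProduct.tmul_add _ _ _ }

/-- The map to new parameters is semilinear. -/
theorem mapIn_smul (f : A →ₐ[k] B) (E : Bdl C A) (s : C.S01 A) (m : E.M) :
    E.mapIn f (s • m) = C.map01 f s • E.mapIn f m := by
  let := (C.map01 f).toRingHom.toAlgebra
  show ((1 : C.S01 B) ⊗ₜ[C.S01 A] (s • m) : C.S01 B ⊗[C.S01 A] E.M) = _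
  rw [TensorProduct.tmul_smul]
  exact (algebraMap_smul (C.S01 B) s ((1 : C.S01 B) ⊗ₜ[C.S01 A] m : C.S01 B ⊗[C.S01 A] E.M)).symm

/-- The generators of the first lattice go to those over the new parameters. -/
theorem mapIn_p0 (f : A →ₐ[k] B) (E : Bdl C A) (i : Fin E.l0.n) :
    (E.map f).l0.p i = E.mapIn f (E.l0.p i) := rfl

/-- The coordinates over new parameters are the images of the coordinates. -/
theorem map_φ0 (f : A →ₐ[k] B) (E : Bdl C A) (i : Fin E.l0.n) (m : E.M) :
    (E.map f).l0.φ i (E.mapIn f m) = C.map01 f (E.l0.φ i m) := by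
  let := (C.map01 f).toRingHom.toAlgebra
  show (E.l0.φ i m) • (1 : C.S01 B) = _
  rw [Algebra.smul_def, mul_one]
  rfl

/-- Change of parameters maps the first lattice into the first lattice. -/
theorem mapIn_mem_L0 (f : A →ₐ[k] B) {m : E.M} (hm : m ∈ E.L0) : E.mapIn f m ∈ (E.map f).L0 :=
  mem_L0.mpr fun i => by
    obtain ⟨s, hs⟩ := mem_L0.mp hm i
    exact ⟨C.map0 f s, (((E.map_φ0 f i m).trans (congrArg (C.map01 f) hs.symm)).trans
      (C.map01_res0 f s)).symm⟩

/-- Change of parameters maps the second lattice into the second lattice. -/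
theorem mapIn_mem_L1 (f : A →ₐ[k] B) {m : E.M} (hm : m ∈ E.L1) : E.mapIn f m ∈ (E.map f).L1 :=
  mapIn_mem_L0 (E := E.swap) f hm

/-- A semilinear map out of a bundle extends to the bundle over the new parameters. -/
def mapLift (f : A →ₐ[k] B) (E : Bdl C A) {N : Type u} [AddCommGroup N] [Module (C.S01 B) N]
    (h : E.M →ₛₗ[(C.map01 f).toRingHom] N) : (E.map f).M →ₗ[C.S01 B] N :=
  letI := (C.map01 f).toRingHom.toAlgebra
  letI : Module (C.S01 A) N := Module.compHom N (C.map01 f).toRingHom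
  haveI : IsScalarTower (C.S01 A) (C.S01 B) N := ⟨fun a b n => mul_smul (C.map01 f a) b n⟩
  let h' : E.M →ₗ[C.S01 A] N :=
    { toFun := h, map_add' := map_add h, map_smul' := fun a m => h.map_smulₛₗ a m }
  (LinearMap.liftBaseChange (C.S01 B) h' : C.S01 B ⊗[C.S01 A] E.M →ₗ[C.S01 B] N)

theorem mapLift_mapIn (f : A →ₐ[k] B) (E : Bdl C A) {N : Type u} [AddCommGroup N]
    [Module (C.S01 B) N] (h : E.M →ₛₗ[(C.map01 f).toRingHom] N) (m : E.M) :
    E.mapLift f h (E.mapIn f m) = h m :=
  one_smul (C.S01 B) (h m)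

/-- Two linear maps agree if they agree on the old elements. -/
theorem map_ext (f : A →ₐ[k] B) (E : Bdl C A) {N : Type u} [AddCommGroup N] [Module (C.S01 B) N]
    {g g' : (E.map f).M →ₗ[C.S01 B] N} (h : ∀ m, g (E.mapIn f m) = g' (E.mapIn f m)) : g = g' := by
  let := (C.map01 f).toRingHom.toAlgebra
  refine LinearMap.ext fun x => ?_
  induction x using TensorProduct.induction_on with
  | zero => exact (map_zero g).trans (map_zero g').symm
  | tmul s m =>
    have e : (s ⊗ₜ[C.S01 A] m : C.S01 B ⊗[C.S01 A] E.M) = s • E.mapIn f m := by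
      show _ = (s • ((1 : C.S01 B) ⊗ₜ[C.S01 A] m) : C.S01 B ⊗[C.S01 A] E.M)
      rw [TensorProduct.smul_tmul', smul_eq_mul, mul_one]
    exact (congrArg g e).trans (((map_smul g s _).trans (congrArg (s • ·) (h m))).trans
      ((map_smul g' s _).symm.trans (congrArg g' e).symm))
  | add a b ha hb =>
    exact (map_add g a b).trans ((congrArg₂ (· + ·) ha hb).trans (map_add g' a b).symm)

/-- Change of parameters of maps. -/
def mapHom (f : A →ₐ[k] B) (h : E.M →ₗ[C.S01 A] E'.M) :
    (E.map f).M →ₗ[C.S01 B] (E'.map f).M :=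
  E.mapLift f
    { toFun := fun m => E'.mapIn f (h m)
      map_add' := fun a b => by rw [map_add, map_add]
      map_smul' := fun a m => by rw [map_smul, mapIn_smul]; rfl }

theorem mapHom_mapIn (f : A →ₐ[k] B) (h : E.M →ₗ[C.S01 A] E'.M) (m : E.M) :
    mapHom f h (E.mapIn f m) = E'.mapIn f (h m) :=
  mapLift_mapIn f E _ m

theorem mapHom_inverse (f : A →ₐ[k] B) (h : E.M →ₗ[C.S01 A] E'.M) (h' : E'.M →ₗ[C.S01 A] E.M)
    (hh : ∀ m, h' (h m) = m) : (mapHom f h').comp (mapHom f h) = LinearMap.id :=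
  map_ext f E fun m => by
    rw [LinearMap.comp_apply, mapHom_mapIn, mapHom_mapIn, hh]; rfl

/-- Change of parameters respects isomorphisms. -/
def Iso.map (i : Iso E E') (f : A →ₐ[k] B) : Iso (E.map f) (E'.map f) :=
  Iso.mk'
    (LinearEquiv.ofLinearMap (mapHom f i.e.toLinearMap) (mapHom f i.e.symm.toLinearMap)
      (mapHom_inverse f _ _ i.e.apply_symm_apply) (mapHom_inverse f _ _ i.e.symm_apply_apply))
    (fun j => (mapHom_mapIn f i.e.toLinearMap _).symm ▸
      mapIn_mem_L0 f ((i.map_L0 _).mpr (E.p_mem_L0 j)))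
    (fun j => (mapHom_mapIn f i.e.symm.toLinearMap _).symm ▸
      mapIn_mem_L0 f ((i.symm.map_L0 _).mpr (E'.p_mem_L0 j)))
    (fun j => (mapHom_mapIn f i.e.toLinearMap _).symm ▸
      mapIn_mem_L1 f ((i.map_L1 _).mpr (E.p_mem_L1 j)))
    (fun j => (mapHom_mapIn f i.e.symm.toLinearMap _).symm ▸
      mapIn_mem_L1 f ((i.symm.map_L1 _).mpr (E'.p_mem_L1 j)))

/-- Change of parameters along a composite. -/
def mapComp (f : A →ₐ[k] B) (g : B →ₐ[k] D) (E : Bdl C A) :
    Iso ((E.map f).map g) (E.map (g.comp f)) := by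
  let u : (E.map f).M →ₛₗ[(C.map01 g).toRingHom] (E.map (g.comp f)).M :=
    letI : Module (C.S01 B) (E.map (g.comp f)).M :=
      Module.compHom _ (C.map01 g).toRingHom
    let w := E.mapLift f (N := (E.map (g.comp f)).M)
      { toFun := E.mapIn (g.comp f)
        map_add' := map_add _
        map_smul' := fun s m => by
          rw [mapIn_smul]
          exact congrArg (· • _) (C.map01_comp f g s).symm }
    { toFun := w, map_add' := map_add w, map_smul' := fun s m => map_smul w s m }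
  let p := (E.map f).mapLift g u
  let q := E.mapLift (g.comp f) (N := ((E.map f).map g).M)
    { toFun := fun m => (E.map f).mapIn g (E.mapIn f m)
      map_add' := fun a b => by rw [map_add, map_add]
      map_smul' := fun s m => by
        rw [mapIn_smul, mapIn_smul, Curve2.map01_comp]; rfl }
  have hp : ∀ m, p ((E.map f).mapIn g (E.mapIn f m)) = E.mapIn (g.comp f) m := fun m => by
    rw [mapLift_mapIn]
    let : Module (C.S01 B) (E.map (g.comp f)).M := Module.compHom _ (C.map01 g).toRingHom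
    exact one_smul (C.S01 B) (E.mapIn (g.comp f) m)
  have hq : ∀ m, q (E.mapIn (g.comp f) m) = (E.map f).mapIn g (E.mapIn f m) := fun m =>
    mapLift_mapIn _ E _ m
  have e1 : p.comp q = LinearMap.id := map_ext _ E fun m => by
    rw [LinearMap.comp_apply, hq, hp]; rfl
  have e2 : q.comp p = LinearMap.id := by
    refine map_ext g (E.map f) fun x => ?_
    let : Module (C.S01 B) ((E.map f).map g).M := Module.compHom _ (C.map01 g).toRingHom
    let l : (E.map f).M →ₗ[C.S01 B] ((E.map f).map g).M :=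
      { toFun := fun x => (q.comp p) ((E.map f).mapIn g x)
        map_add' := fun a b => by rw [map_add, map_add]
        map_smul' := fun s x => by rw [mapIn_smul, map_smul]; rfl }
    let l' : (E.map f).M →ₗ[C.S01 B] ((E.map f).map g).M :=
      { toFun := fun x => (E.map f).mapIn g x
        map_add' := map_add _
        map_smul' := fun s x => mapIn_smul g _ s x }
    exact LinearMap.congr_fun (map_ext f E (g := l) (g' := l') fun m => by
      show q (p ((E.map f).mapIn g (E.mapIn f m))) = (E.map f).mapIn g (E.mapIn f m)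
      rw [hp, hq]) x
  refine Iso.mk' (LinearEquiv.ofLinearMap p q e1 e2) (fun i => ?_) (fun i => ?_) (fun i => ?_)
    (fun i => ?_)
  · show p ((E.map f).mapIn g (E.mapIn f (E.l0.p i))) ∈ _
    rw [hp]; exact mapIn_mem_L0 _ (E.p_mem_L0 i)
  · show q (E.mapIn (g.comp f) (E.l0.p i)) ∈ _
    rw [hq]; exact mapIn_mem_L0 _ (mapIn_mem_L0 _ (E.p_mem_L0 i))
  · show p ((E.map f).mapIn g (E.mapIn f (E.l1.p i))) ∈ _
    rw [hp]; exact mapIn_mem_L1 _ (E.p_mem_L1 i)
  · show q (E.mapIn (g.comp f) (E.l1.p i)) ∈ _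
    rw [hq]; exact mapIn_mem_L1 _ (mapIn_mem_L1 _ (E.p_mem_L1 i))

/-- Change of parameters along the identity. -/
def mapId (E : Bdl C A) : Iso (E.map (AlgHom.id k A)) E := by
  let p := E.mapLift (AlgHom.id k A) (N := E.M)
    { toFun := fun m => m
      map_add' := fun _ _ => rfl
      map_smul' := fun s m => congrArg (· • m) (C.map01_id s).symm }
  let q : E.M →ₗ[C.S01 A] (E.map (AlgHom.id k A)).M :=
    { toFun := E.mapIn (AlgHom.id k A)
      map_add' := map_add _
      map_smul' := fun s m => by rw [mapIn_smul, C.map01_id]; rfl }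
  have hp : ∀ m, p (E.mapIn _ m) = m := fun m => mapLift_mapIn _ E _ m
  refine Iso.mk' (LinearEquiv.ofLinearMap p q (LinearMap.ext hp)
    (map_ext _ E fun m => congrArg q (hp m))) (fun i => ?_) (fun i => ?_)
    (fun i => ?_) (fun i => ?_)
  · show p (E.mapIn _ (E.l0.p i)) ∈ _
    rw [hp]; exact E.p_mem_L0 i
  · exact mapIn_mem_L0 _ (E.p_mem_L0 i)
  · show p (E.mapIn _ (E.l1.p i)) ∈ _
    rw [hp]; exact E.p_mem_L1 i
  · exact mapIn_mem_L1 _ (E.p_mem_L1 i)

/-- Change of parameters of the trivial bundle. -/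
def mapOne (f : A →ₐ[k] B) : Iso ((one C A).map f) (one C B) := by
  let p := (one C A).mapLift f (N := C.S01 B)
    { toFun := fun m => C.map01 f m
      map_add' := map_add _
      map_smul' := fun s m => map_mul (C.map01 f) s m }
  let q : C.S01 B →ₗ[C.S01 B] ((one C A).map f).M :=
    LinearMap.toSpanSingleton _ _ ((one C A).mapIn f (1 : C.S01 A))
  have hp : ∀ m : C.S01 A, p ((one C A).mapIn f m) = C.map01 f m := fun m =>
    mapLift_mapIn f (one C A) _ m
  have hq : ∀ m : C.S01 A, q (C.map01 f m) = (one C A).mapIn f m := fun m => by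
    show C.map01 f m • (one C A).mapIn f (1 : C.S01 A) = _
    rw [← mapIn_smul]
    exact congrArg _ (mul_one m)
  refine Iso.mk' (E' := one C B) (LinearEquiv.ofLinearMap p q (LinearMap.ext_ring ?_)
    (map_ext f _ fun m => ?_)) (fun i => ?_) (fun i => ?_) (fun i => ?_) (fun i => ?_)
  · show p ((1 : C.S01 B) • (one C A).mapIn f (1 : C.S01 A)) = 1
    rw [one_smul, hp, map_one]
  · show q (p ((one C A).mapIn f m)) = _
    rw [hp, hq]; rfl
  · show p ((one C A).mapIn f (1 : C.S01 A)) ∈ _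
    rw [hp, map_one]; exact one_mem_L0
  · show (1 : C.S01 B) • (one C A).mapIn f (1 : C.S01 A) ∈ _
    rw [one_smul]; exact mapIn_mem_L0 _ one_mem_L0
  · show p ((one C A).mapIn f (1 : C.S01 A)) ∈ _
    rw [hp, map_one]; exact one_mem_L1
  · show (1 : C.S01 B) • (one C A).mapIn f (1 : C.S01 A) ∈ _
    rw [one_smul]; exact mapIn_mem_L1 _ one_mem_L1

/-- Change of parameters of a tensor product. -/
def mapTensor (f : A →ₐ[k] B) (E F : Bdl C A) :
    Iso ((E.tensor F).map f) ((E.map f).tensor (F.map f)) := by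
  letI : Algebra (C.S01 A) (C.S01 B) := (C.map01 f).toRingHom.toAlgebra
  exact Iso.mk' (E := (E.tensor F).map f) (E' := (E.map f).tensor (F.map f))
    (TensorProduct.AlgebraTensorModule.distribBaseChange (C.S01 A) (C.S01 B) E.M F.M)
    (fun i => tmul_mem_L0 (mapIn_mem_L0 f (E.p_mem_L0 _)) (mapIn_mem_L0 f (F.p_mem_L0 _)))
    (fun i => by
      show (((1 : C.S01 B) * 1) ⊗ₜ[C.S01 A] (E.l0.p _ ⊗ₜ[C.S01 A] F.l0.p _) :
        C.S01 B ⊗[C.S01 A] (E.M ⊗[C.S01 A] F.M)) ∈ ((E.tensor F).map f).L0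
      rw [one_mul]
      exact mapIn_mem_L0 (E := E.tensor F) f (tmul_mem_L0 (E.p_mem_L0 _) (F.p_mem_L0 _)))
    (fun i => tmul_mem_L1 (mapIn_mem_L1 f (E.p_mem_L1 _)) (mapIn_mem_L1 f (F.p_mem_L1 _)))
    (fun i => by
      show (((1 : C.S01 B) * 1) ⊗ₜ[C.S01 A] (E.l1.p _ ⊗ₜ[C.S01 A] F.l1.p _) :
        C.S01 B ⊗[C.S01 A] (E.M ⊗[C.S01 A] F.M)) ∈ ((E.tensor F).map f).L1
      rw [one_mul]
      exact mapIn_mem_L1 (E := E.tensor F) f (tmul_mem_L1 (E.p_mem_L1 _) (F.p_mem_L1 _)))

/-- Change of parameters of a twist. -/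
def mapTwist (f : A →ₐ[k] B) (E : Bdl C A) (n : ℕ) : Iso ((E.twist n).map f) ((E.map f).twist n) :=
  Iso.mk' (E := (E.twist n).map f) (E' := (E.map f).twist n) (LinearEquiv.refl _ (E.map f).M)
    (fun i => ((E.map f).twist n).p_mem_L0 i)
    (fun i => ((E.twist n).map f).p_mem_L0 i)
    (fun i => by
      show E.mapIn f (C.tA A ^ n • E.l1.p i) ∈ ((E.map f).twist n).L1
      rw [mapIn_smul, map_pow, Curve2.map01_tA]
      exact ((E.map f).twist n).p_mem_L1 i)
    (fun i => by
      show C.tA B ^ n • E.mapIn f (E.l1.p i) ∈ ((E.twist n).map f).L1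
      rw [← Curve2.map01_tA f, ← map_pow, ← mapIn_smul]
      exact ((E.twist n).map f).p_mem_L1 i)

/-- An inverse is unique. -/
def Iso.dualOfTensor {X Y : Bdl C A} (h : Iso (X.tensor Y) (one C A)) : Iso X Y.dual :=
  (((oneTensor X).symm.trans ((dualTensor Y).symm.tensor (Iso.refl X))).trans
    (tensorAssoc Y.dual Y X)).trans
      (((Iso.refl Y.dual).tensor ((tensorComm Y X).trans h)).trans
        ((tensorComm Y.dual (one C A)).trans (oneTensor Y.dual)))

/-- Change of parameters of an inverse. -/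
def mapDual (f : A →ₐ[k] B) (E : Bdl C A) : Iso (E.dual.map f) (E.map f).dual :=
  Iso.dualOfTensor (((mapTensor f E.dual E).symm.trans ((dualTensor E).map f)).trans (mapOne f))

variable (C A) in
/-- The isomorphism classes of bundles. -/
abbrev Cls : Type (u + 1) := Quotient (isoSetoid (C := C) (A := A))

/-- The class of a bundle. -/
def cls (E : Bdl C A) : Cls C A := Quotient.mk isoSetoid E

/-- Two bundles have the same class iff they are isomorphic. -/
theorem cls_eq_iff {E F : Bdl C A} : cls E = cls F ↔ Nonempty (Iso E F) :=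
  Quotient.eq (r := isoSetoid)

instance instCommGroupCls : CommGroup (Cls C A) where
  mul := Quotient.map₂ tensor fun _ _ ⟨i⟩ _ _ ⟨j⟩ => ⟨i.tensor j⟩
  one := cls (one C A)
  inv := Quotient.map dual fun _ _ ⟨i⟩ => ⟨i.dual⟩
  mul_assoc a b c := Quotient.inductionOn₃ a b c fun E F G => Quotient.sound ⟨tensorAssoc E F G⟩
  one_mul a := Quotient.inductionOn a fun E => Quotient.sound ⟨oneTensor E⟩
  mul_one a := Quotient.inductionOn a fun E =>
    Quotient.sound ⟨(tensorComm E (one C A)).trans (oneTensor E)⟩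
  inv_mul_cancel a := Quotient.inductionOn a fun E => Quotient.sound ⟨dualTensor E⟩
  mul_comm a b := Quotient.inductionOn₂ a b fun E F => Quotient.sound ⟨tensorComm E F⟩

/-- The class of a tensor product is the product of the classes. -/
theorem cls_tensor (E F : Bdl C A) : cls (E.tensor F) = cls E * cls F := rfl

/-- The class of the inverse bundle is the inverse class. -/
theorem cls_dual (E : Bdl C A) : cls E.dual = (cls E)⁻¹ := rfl

/-- The class of a twist is the class times that of the twisted trivial bundle. -/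
theorem cls_twist (E : Bdl C A) (n : ℕ) : cls (E.twist n) = cls ((one C A).twist n) * cls E :=
  (Quotient.sound ⟨twistTensor E n⟩ : cls (((one C A).twist n).tensor E) = cls (E.twist n)).symm

variable (C) in
/-- Change of parameters on classes. -/
def clsMap (f : A →ₐ[k] B) : Cls C A →* Cls C B where
  toFun := Quotient.map (map f) fun _ _ ⟨i⟩ => ⟨i.map f⟩
  map_one' := Quotient.sound ⟨mapOne f⟩
  map_mul' a b := Quotient.inductionOn₂ a b fun E F => Quotient.sound ⟨mapTensor f E F⟩

/-- The class of a base change is the image of the class. -/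
theorem clsMap_cls (f : A →ₐ[k] B) (E : Bdl C A) : clsMap C f (cls E) = cls (E.map f) := rfl

end Bdl

end FermatAgent.Pic
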