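import Fermat.Agent.Pic.Coh.H0

/-!
# Base change of global sections, and global functions

Global sections of an acyclic bundle commute with change of parameters, and the global functions
on the curve over `A` are the elements of `A`.
-/

set_option autoImplicit false

noncomputable section

universe u

open scoped TensorProduct

namespace FermatAgent.Pic

variable {k : Type u} [Field k] {C : Curve2 k} {A B : Type u} [CommRing A] [Algebra k A]
  [CommRing B] [Algebra k B]

namespace Bdl

section BaseChange

variable [Algebra A B] [IsScalarTower k A B]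

local notation "φAB" => IsScalarTower.toAlgHom k A B

theorem baseMap_baseChange_subtype_mem (E : Bdl C A) (p : Submodule A E.M)
    (q : Submodule B (E.map φAB).M) (h : ∀ m ∈ p, E.mapIn φAB m ∈ q) (x : B ⊗[A] p) :
    E.baseMap (p.subtype.baseChange B x) ∈ q := by
  induction x using TensorProduct.induction_on with
  | zero => simp
  | add u v hu hv => rw [map_add, map_add]; exact add_mem hu hv
  | tmul b m => exact q.smul_mem b (h m.1 m.2)

theorem exists_baseMap_eq (E : Bdl C A) (p : Submodule A E.M) {y : (E.map φAB).M}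
    (hy : y ∈ Submodule.span B (E.mapIn φAB '' (p : Set E.M))) :
    ∃ z : B ⊗[A] p, E.baseMap (p.subtype.baseChange B z) = y := by
  have hle : Submodule.span B (E.mapIn φAB '' (p : Set E.M)) ≤
      LinearMap.range (E.baseMap (B := B) ∘ₗ p.subtype.baseChange B) := by
    rw [Submodule.span_le]
    rintro _ ⟨m, hm, rfl⟩
    exact ⟨(1 : B) ⊗ₜ[A] ⟨m, hm⟩, by simp [baseMap_tmul]⟩
  exact hle hy

/-- The comparison map of global sections. -/
def h0Map (E : Bdl C A) : B ⊗[A] E.H0 →ₗ[B] (E.map φAB).H0 :=
  LinearMap.codRestrict _ (E.baseMap ∘ₗ E.H0.subtype.baseChange B) fun x =>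
    ⟨E.baseMap_baseChange_subtype_mem E.H0 _ (fun _ hm => mapIn_mem_L0 _ hm.1) x,
      E.baseMap_baseChange_subtype_mem E.H0 _ (fun _ hm => mapIn_mem_L1 _ hm.2) x⟩

/-- **Base change of global sections**: for an acyclic bundle forming `H0` commutes with change of
parameters. -/
theorem h0Map_bijective (E : Bdl C A) (h : E.Acyclic) :
    Function.Bijective (E.h0Map (B := B)) := by
  obtain ⟨r, s, hr, hs⟩ := E.exists_retraction_diag h
  have hd0 : E.L0.subtype ∘ₗ LinearMap.fst A _ _ ∘ₗ E.diag = E.H0.subtype := rfl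
  have hd1 : E.L1.subtype ∘ₗ LinearMap.snd A _ _ ∘ₗ E.diag = E.H0.subtype := rfl
  have hi0 : Function.Injective (E.L0.subtype.baseChange B) :=
    baseChange_subtype_injective (ρ := C.res0 A) (C.res0_injective A) E.l0 B
      C.baseChange_res0_injective
  have hi1 : Function.Injective (E.L1.subtype.baseChange B) :=
    baseChange_subtype_injective (ρ := C.res1 A) (C.res1_injective A) E.l1 B
      C.baseChange_res1_injective
  have hbm := (E.baseMap_bijective (B := B))
  constructor
  · rw [← LinearMap.ker_eq_bot, LinearMap.ker_eq_bot']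
    intro x hx
    have h0 : E.H0.subtype.baseChange B x = 0 :=
      hbm.1 ((congrArg Subtype.val hx).trans (map_zero _).symm)
    have e0 : (LinearMap.fst A _ _ ∘ₗ E.diag).baseChange B x = 0 := hi0 (by
      rw [map_zero, ← LinearMap.comp_apply, ← LinearMap.baseChange_comp, hd0, h0])
    have e1 : (LinearMap.snd A _ _ ∘ₗ E.diag).baseChange B x = 0 := hi1 (by
      rw [map_zero, ← LinearMap.comp_apply, ← LinearMap.baseChange_comp, hd1, h0])
    have hid : (LinearMap.id : E.H0 →ₗ[A] E.H0) =
        (r ∘ₗ LinearMap.inl A _ _) ∘ₗ (LinearMap.fst A _ _ ∘ₗ E.diag) +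
          (r ∘ₗ LinearMap.inr A _ _) ∘ₗ (LinearMap.snd A _ _ ∘ₗ E.diag) := by
      refine LinearMap.ext fun m => ?_
      simp only [LinearMap.add_apply, LinearMap.comp_apply, ← map_add, LinearMap.inl_apply,
        LinearMap.inr_apply, Prod.mk_add_mk, add_zero, zero_add, LinearMap.fst_apply,
        LinearMap.snd_apply, LinearMap.id_apply]
      exact (LinearMap.congr_fun hr m).symm
    have e := congrArg (fun φ : E.H0 →ₗ[A] E.H0 => φ.baseChange B x) hid
    simp only [LinearMap.baseChange_id, LinearMap.id_apply, LinearMap.baseChange_add,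
      LinearMap.add_apply, LinearMap.baseChange_comp, LinearMap.comp_apply] at e
    rw [e, ← LinearMap.comp_apply ((LinearMap.fst A _ _).baseChange B),
      ← LinearMap.baseChange_comp, e0, ← LinearMap.comp_apply ((LinearMap.snd A _ _).baseChange B),
      ← LinearMap.baseChange_comp, e1]
    simp
  · intro y
    obtain ⟨z0, hz0⟩ := E.exists_baseMap_eq E.L0 (E.L0_map_le y.2.1)
    obtain ⟨z1, hz1⟩ := E.exists_baseMap_eq E.L1 (E.L1_map_le y.2.2)
    have he : E.L0.subtype.baseChange B z0 = E.L1.subtype.baseChange B z1 :=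
      hbm.1 (hz0.trans hz1.symm)
    set Z := (LinearMap.inl A E.L0 E.L1).baseChange B z0 +
      (LinearMap.inr A E.L0 E.L1).baseChange B z1
    refine ⟨r.baseChange B Z, Subtype.ext ?_⟩
    show E.baseMap (E.H0.subtype.baseChange B (r.baseChange B Z)) = y.1
    rw [← hz0]
    refine congrArg _ ?_
    have hD : E.diffMap.baseChange B Z = 0 := by
      rw [map_add, ← LinearMap.comp_apply, ← LinearMap.baseChange_comp, ← LinearMap.comp_apply,
        ← LinearMap.baseChange_comp, diffMap, LinearMap.coprod_inl, LinearMap.coprod_inr,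
        LinearMap.baseChange_neg, LinearMap.neg_apply, he, add_neg_cancel]
    have e := congrArg (fun φ : E.L0 × E.L1 →ₗ[A] E.M => φ.baseChange B Z) hs
    simp only [LinearMap.baseChange_add, LinearMap.add_apply, LinearMap.baseChange_comp,
      LinearMap.comp_apply, hD, map_zero, zero_add] at e
    rw [← e, map_add, ← LinearMap.comp_apply ((LinearMap.fst A _ _).baseChange B),
      ← LinearMap.baseChange_comp, LinearMap.fst_comp_inl,
      ← LinearMap.comp_apply ((LinearMap.fst A _ _).baseChange B),
      ← LinearMap.baseChange_comp, LinearMap.fst_comp_inr]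
    simp

/-- Global sections over the new parameters. -/
def h0Equiv (E : Bdl C A) (h : E.Acyclic) : B ⊗[A] E.H0 ≃ₗ[B] (E.map φAB).H0 :=
  LinearEquiv.ofBijective _ (E.h0Map_bijective h)

end BaseChange

variable (C A) in
theorem algebraMap_S01_injective : Function.Injective (algebraMap A (C.S01 A)) :=
  Algebra.TensorProduct.includeLeft_injective (S := A) (algebraMap k C.R01).injective

/-- **The global functions are the parameters**: the global sections of the trivial bundle over
`A` are the elements of `A`. -/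
theorem mem_H0_one {s : C.S01 A} : s ∈ (one C A).H0 ↔ ∃ a : A, algebraMap A (C.S01 A) a = s := by
  constructor
  · rintro ⟨h0, h1⟩
    obtain ⟨s0, rfl⟩ := mem_L0_one'.mp h0
    have hs : C.res0 A s0 ∈ V0A C A 0 := mem_V0A (by
      rw [pow_zero, one_mul]
      obtain ⟨s1, hs1⟩ := mem_L1_one'.mp h1
      exact ⟨s1, hs1⟩)
    obtain ⟨_, ⟨w, rfl⟩, hw⟩ := hs
    rw [← hw]
    clear hw h0 h1
    induction w using TensorProduct.induction_on with
    | zero => exact ⟨0, by simp⟩
    | add u v hu hv =>
      obtain ⟨a, ha⟩ := hu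
      obtain ⟨b, hb⟩ := hv
      exact ⟨a + b, by rw [map_add, ha, hb, map_add, map_add]⟩
    | tmul a r =>
      obtain ⟨r1, hr1⟩ := (mem_V0 C).mp r.2
      obtain ⟨c, hc⟩ := C.glob r.1 r1 (by rw [hr1, pow_zero, one_mul])
      refine ⟨algebraMap k A c * a, ?_⟩
      rw [TensorProduct.AlgebraTensorModule.lTensor_tmul, Submodule.coe_subtype, hc]
      simp [Curve2.res0, Algebra.algebraMap_eq_smul_one,
        TensorProduct.smul_tmul']
      rw [Algebra.TensorProduct.one_def, TensorProduct.smul_tmul', TensorProduct.smul_tmul',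
        smul_eq_mul, mul_one]
  · rintro ⟨a, rfl⟩
    exact ⟨mem_L0_one'.mpr ⟨algebraMap A _ a, AlgHom.commutes _ a⟩,
      mem_L1_one'.mpr ⟨algebraMap A _ a, AlgHom.commutes _ a⟩⟩

variable (C A) in
/-- The parameters as global functions. -/
def h0One : A ≃ₗ[A] (one C A).H0 :=
  LinearEquiv.ofBijective
    (LinearMap.codRestrict (one C A).H0 (Algebra.linearMap A (C.S01 A) : A →ₗ[A] (one C A).M)
      fun a => mem_H0_one.mpr ⟨a, rfl⟩)
    ⟨fun _ _ h => algebraMap_S01_injective C A (congrArg Subtype.val h),
      fun s => by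
        obtain ⟨a, ha⟩ := mem_H0_one.mp s.2
        exact ⟨a, Subtype.ext ha⟩⟩

end Bdl

end FermatAgent.Pic
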