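import Fermat.Agent.Pic.AtPoint
import Fermat.Agent.Pic.Coh.H0Map

/-!
# Acyclicity at a point

It is governed by the annihilator of a finite module, so can be checked at geometric points and
spreads to a neighbourhood.
-/

set_option autoImplicit false

noncomputable section

universe u

open scoped TensorProduct

namespace FermatAgent.Pic

variable {k : Type u} [Field k] {C : Curve2 k} {A B : Type u} [CommRing A] [Algebra k A]
  [CommRing B] [Algebra k B]

namespace Bdl

/-- A function vanishing at the point times a section gives a section vanishing there. -/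
theorem mem_vanish_of_pt1_eq_zero (E : Bdl C A) (P : C.R1 →ₐ[k] A) {s : C.S1 A}
    (hs : C.pt1 A P s = 0) {m : E.M} (hm : m ∈ E.L1) : C.res1 A s • m ∈ E.vanish P :=
  Submodule.subset_span ⟨s, hs, m, hm, rfl⟩

/-- Modulo the sections vanishing at the point the second lattice is spanned by its generators. -/
theorem L1_le_span_sup_vanish (E : Bdl C A) (P : C.R1 →ₐ[k] A) :
    E.L1 ≤ Submodule.span A (Set.range E.l1.p) ⊔ E.vanish P := by
  intro m hm
  obtain ⟨c, rfl⟩ := E.mem_L1_iff_exists.mp hm
  refine sum_mem fun i _ => ?_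
  rw [show c i = algebraMap A (C.S1 A) (C.pt1 A P (c i)) +
    (c i - algebraMap A (C.S1 A) (C.pt1 A P (c i))) by abel, map_add, add_smul]
  refine Submodule.add_mem_sup ?_ (E.mem_vanish_of_pt1_eq_zero P ?_ (E.p_mem_L1 i))
  · rw [AlgHom.commutes, algebraMap_smul]
    exact Submodule.smul_mem _ _ (Submodule.subset_span ⟨i, rfl⟩)
  · rw [map_sub, AlgHom.commutes]
    exact sub_self _

theorem finite_quot_vanish (E : Bdl C A) (P : C.R1 →ₐ[k] A) :
    Module.Finite A (E.M ⧸ (E.L0 ⊔ E.vanish P)) := by
  classical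
  obtain ⟨r, m, hm⟩ := E.exists_gen_H1
  let G : Fin r ⊕ Fin E.l1.n → E.M ⧸ (E.L0 ⊔ E.vanish P) :=
    Sum.elim (fun i => Submodule.Quotient.mk (m i)) fun j => Submodule.Quotient.mk (E.l1.p j)
  suffices h : Submodule.span A (Set.range G) = ⊤ from
    ⟨h ▸ Submodule.fg_span (Set.finite_range G)⟩
  let N := (Submodule.span A (Set.range G)).comap (E.L0 ⊔ E.vanish P).mkQ
  have h0 : E.L0 ⊔ E.vanish P ≤ N := fun x hx => by
    rw [Submodule.mem_comap, show (E.L0 ⊔ E.vanish P).mkQ x = 0 from
      (Submodule.Quotient.mk_eq_zero _).mpr hx]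
    exact zero_mem _
  have h1 : E.L1 ≤ N := (E.L1_le_span_sup_vanish P).trans (sup_le (Submodule.span_le.mpr (by
      rintro _ ⟨j, rfl⟩; exact Submodule.subset_span ⟨Sum.inr j, rfl⟩))
    ((le_sup_right (a := E.L0)).trans h0))
  refine eq_top_iff.mpr fun x _ => ?_
  obtain ⟨y, rfl⟩ := Submodule.mkQ_surjective _ x
  show y ∈ N
  obtain ⟨c, hd⟩ := hm y
  have := add_mem (sup_le (le_sup_left.trans h0) h1 hd)
    (sum_mem fun i (_ : i ∈ Finset.univ) => N.smul_mem (c i)
      (Submodule.subset_span ⟨Sum.inl i, rfl⟩ : m i ∈ N))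
  rwa [sub_add_cancel] at this

theorem mapIn_mem_vanish (E : Bdl C A) (f : A →ₐ[k] B) (P : C.R1 →ₐ[k] A) {m : E.M}
    (hm : m ∈ E.vanish P) : E.mapIn f m ∈ (E.map f).vanish (f.comp P) := by
  induction hm using Submodule.span_induction with
  | mem x hx =>
    obtain ⟨s, hs, n, hn, rfl⟩ := hx
    rw [mapIn_smul, C.map01_res1]
    exact mem_vanish_of_pt1_eq_zero _ _ (by rw [C.pt1_map1, hs, map_zero]) (mapIn_mem_L1 _ hn)
  | zero => rw [map_zero]; exact zero_mem _
  | add x y _ _ hx hy => rw [map_add]; exact add_mem hx hy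
  | smul a x _ hx =>
    rw [← algebraMap_smul (C.S01 A) a x, mapIn_smul,
      show C.map01 f (algebraMap A (C.S01 A) a) = algebraMap B (C.S01 B) (f a) by
        simp [Curve2.map01, Algebra.TensorProduct.algebraMap_apply], algebraMap_smul]
    exact Submodule.smul_mem _ _ hx

section BaseChange

variable [Algebra A B] [IsScalarTower k A B]

local notation "φAB" => IsScalarTower.toAlgHom k A B

theorem vanish_map_le (E : Bdl C A) (P : C.R1 →ₐ[k] A) :
    (E.map φAB).vanish ((φAB).comp P) ≤
      Submodule.span B (E.mapIn φAB '' (E.vanish P : Set E.M)) := by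
  rw [vanish, Submodule.span_le]
  rintro _ ⟨s, hs, m', hm', rfl⟩
  -- the ideal of the point is generated by the differences
  have hgen : ∀ s : C.S1 B, s - algebraMap B (C.S1 B) (C.pt1 B ((φAB).comp P) s) ∈ Submodule.span B
      (C.map1 φAB '' {t : C.S1 A | C.pt1 A P t = 0}) := fun s => by
    induction s using TensorProduct.induction_on with
    | zero => simp
    | add u v hu hv => rw [map_add, map_add, add_sub_add_comm]; exact add_mem hu hv
    | tmul b r =>
      have e : b ⊗ₜ[k] r - algebraMap B (C.S1 B) (C.pt1 B ((φAB).comp P) (b ⊗ₜ[k] r)) =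
          b • C.map1 φAB ((1 : A) ⊗ₜ[k] r - algebraMap A (C.S1 A) (P r)) := by
        rw [map_sub, smul_sub]
        simp [Curve2.map1, Curve2.pt1, Algebra.TensorProduct.algebraMap_apply,
          TensorProduct.smul_tmul']
      rw [e]
      exact Submodule.smul_mem _ b (Submodule.subset_span ⟨_, by
        simp [Curve2.pt1, Algebra.TensorProduct.algebraMap_apply], rfl⟩)
  have hs' := hgen s
  rw [hs, map_zero, sub_zero] at hs'
  have hm := E.L1_map_le hm'
  clear hs hm'
  induction hs' using Submodule.span_induction with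
  | zero => rw [map_zero, zero_smul]; exact zero_mem _
  | add u v _ _ hu hv => rw [map_add, add_smul]; exact add_mem hu hv
  | smul b u _ hu =>
    rw [map_smul, smul_assoc]
    exact Submodule.smul_mem _ b hu
  | mem u hu =>
    obtain ⟨t, ht, rfl⟩ := hu
    induction hm using Submodule.span_induction with
    | mem y hy =>
      obtain ⟨n, hn, rfl⟩ := hy
      rw [← C.map01_res1, ← mapIn_smul]
      exact Submodule.subset_span ⟨_, E.mem_vanish_of_pt1_eq_zero P ht hn, rfl⟩
    | zero => rw [smul_zero]; exact zero_mem _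
    | add y z _ _ hy hz => rw [smul_add]; exact add_mem hy hz
    | smul b y _ hy => rw [smul_comm]; exact Submodule.smul_mem _ b hy

theorem L0_vanish_map_le (E : Bdl C A) (P : C.R1 →ₐ[k] A) :
    (E.map φAB).L0 ⊔ (E.map φAB).vanish ((φAB).comp P) ≤
      Submodule.span B (E.mapIn φAB '' ((E.L0 ⊔ E.vanish P : Submodule A E.M) : Set E.M)) :=
  sup_le (E.L0_map_le.trans (Submodule.span_mono
      (Set.image_mono (SetLike.coe_subset_coe.mpr le_sup_left))))
    ((E.vanish_map_le P).trans (Submodule.span_mono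
      (Set.image_mono (SetLike.coe_subset_coe.mpr le_sup_right))))

end BaseChange

theorem mapIn_mem_sup_vanish (E : Bdl C A) (f : A →ₐ[k] B) (P : C.R1 →ₐ[k] A) (m : E.M)
    (hm : m ∈ E.L0 ⊔ E.vanish P) :
    E.mapIn f m ∈ (E.map f).L0 ⊔ (E.map f).vanish (f.comp P) := by
  obtain ⟨a, ha, b, hb, rfl⟩ := Submodule.mem_sup.mp hm
  rw [map_add]
  exact Submodule.add_mem_sup (mapIn_mem_L0 _ ha) (E.mapIn_mem_vanish f P hb)

/-- **Acyclicity at a point after change of parameters** holds exactly when the annihilator of the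
obstruction module generates the unit ideal in the new parameters. -/
theorem acyclicAt_map_iff (E : Bdl C A) (f : A →ₐ[k] B) (P : C.R1 →ₐ[k] A) :
    (E.map f).AcyclicAt (f.comp P) ↔
      (Module.annihilator A (E.M ⧸ (E.L0 ⊔ E.vanish P))).map f.toRingHom = ⊤ := by
  let := f.toRingHom.toAlgebra
  have : IsScalarTower k A B := IsScalarTower.of_algebraMap_eq fun c => (f.commutes c).symm
  have := E.finite_quot_vanish P
  exact E.eq_top_iff_annihilator f _ _ (E.mapIn_mem_sup_vanish f P)
    (E.L0_vanish_map_le (B := B) P)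

theorem acyclicAt_iff_annihilator (E : Bdl C A) (P : C.R1 →ₐ[k] A) :
    E.AcyclicAt P ↔ Module.annihilator A (E.M ⧸ (E.L0 ⊔ E.vanish P)) = ⊤ :=
  (Submodule.Quotient.subsingleton_iff).symm.trans Module.annihilator_eq_top_iff.symm

/-- Acyclicity at a point is preserved by change of parameters. -/
theorem AcyclicAt.map {E : Bdl C A} {P : C.R1 →ₐ[k] A} (h : E.AcyclicAt P) (f : A →ₐ[k] B) :
    (E.map f).AcyclicAt (f.comp P) := by
  rw [acyclicAt_map_iff, (E.acyclicAt_iff_annihilator P).mp h, Ideal.map_top]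

/-- **Fibrewise criterion at a point**: a bundle is acyclic at a point iff it is so on every
geometric fibre. -/
theorem acyclicAt_iff_forall_geometric (E : Bdl C A) (P : C.R1 →ₐ[k] A) :
    E.AcyclicAt P ↔ ∀ (L : Type u) [Field L] [Algebra k L] [IsAlgClosed L] (f : A →ₐ[k] L),
      (E.map f).AcyclicAt (f.comp P) :=
  ⟨fun h _ _ _ _ f => h.map f, fun h => (E.acyclicAt_iff_annihilator P).mpr
    (eq_top_of_forall_geometric (k := k) _ fun L _ _ _ f => (E.acyclicAt_map_iff f P).mp (h L f))⟩

/-- **Openness at a point**: acyclicity at a point on one fibre holds over a basic open around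
it. -/
theorem exists_basicOpen_acyclicAt {L : Type u} [Field L] [Algebra k L] (E : Bdl C A)
    (P : C.R1 →ₐ[k] A) (f : A →ₐ[k] L) (h : (E.map f).AcyclicAt (f.comp P)) :
    ∃ a : A, f a ≠ 0 ∧ ∀ (B : Type u) [CommRing B] [Algebra k B] (g : A →ₐ[k] B),
      IsUnit (g a) → (E.map g).AcyclicAt (g.comp P) := by
  rw [acyclicAt_map_iff, map_eq_top_field_iff] at h
  obtain ⟨a, ha, hfa⟩ := SetLike.not_le_iff_exists.mp h
  exact ⟨a, hfa, fun B _ _ g hu => (E.acyclicAt_map_iff g P).mpr
    (Ideal.eq_top_of_isUnit_mem _ (Ideal.mem_map_of_mem _ ha) hu)⟩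

/-- Acyclicity at a point is preserved by isomorphisms. -/
theorem AcyclicAt.of_iso {E E' : Bdl C A} {P : C.R1 →ₐ[k] A} (i : Iso E E')
    (h : E.AcyclicAt P) : E'.AcyclicAt P := by
  refine eq_top_iff.mpr fun x _ => ?_
  obtain ⟨a, ha, b, hb, hab⟩ :=
    Submodule.mem_sup.mp (h ▸ trivial : i.e.symm x ∈ E.L0 ⊔ E.vanish P)
  rw [← i.e.apply_symm_apply x, ← hab, map_add]
  refine Submodule.add_mem_sup ((i.map_L0 a).mpr ha) ?_
  clear hab
  induction hb using Submodule.span_induction with
  | mem y hy =>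
    obtain ⟨s, hs, n, hn, rfl⟩ := hy
    rw [map_smul]
    exact E'.mem_vanish_of_pt1_eq_zero P hs ((i.map_L1 n).mpr hn)
  | zero => rw [map_zero]; exact zero_mem _
  | add y z _ _ hy hz => rw [map_add]; exact add_mem hy hz
  | smul c y _ hy =>
    rw [← algebraMap_smul (C.S01 A) c y, map_smul, algebraMap_smul]
    exact Submodule.smul_mem _ _ hy

/-- A bundle tensored with its inverse is trivial. -/
def tensorDual (E : Bdl C A) : Iso (E.tensor E.dual) (one C A) :=
  (tensorComm E E.dual).trans (dualTensor E)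

end Bdl

end FermatAgent.Pic
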