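import Fermat.Agent.Pic.Coh.Laws

/-!
# Global functionals with one dimensional fibres

If the inverse of a rigid bundle is acyclic at the rigidifying point and has one dimensional
fibres of global sections, its global sections are the multiples of one of them.
-/

set_option autoImplicit false

noncomputable section

universe u

open scoped TensorProduct

namespace FermatAgent.Pic

variable {k : Type u} [Field k] {C : Curve2 k} {A : Type u} [CommRing A] [Algebra k A]

namespace Bdl

/-- **The Euler characteristic of the trivial bundle** is `1 - genus`. -/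
theorem chi_one (K : Type u) [Field K] [Algebra k K] :
    (one C K).chi = 1 - (genus C : ℤ) := by
  rw [chi, ← (h0One C K).finrank_eq, Module.finrank_self,
    ← ((mapOne (C := C) (IsScalarTower.toAlgHom k k K)).h1).finrank_eq,
    ← ((one C k).h1Equiv (B := K)).finrank_eq, Module.finrank_baseChange, genus]
  rfl

/-- The dimension of the global sections of an acyclic bundle at a field. -/
theorem finrank_tensor_H0 {K : Type u} [Field K] [Algebra k K] [Algebra A K] [IsScalarTower k A K]
    (E : Bdl C A) (h : E.Acyclic) :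
    (Module.finrank K (K ⊗[A] E.H0) : ℤ) = (E.map (IsScalarTower.toAlgHom k A K)).chi := by
  have := (E.map (IsScalarTower.toAlgHom k A K)).acyclic_iff_subsingleton.mp (h.map _)
  rw [chi, (E.h0Equiv h).finrank_eq,
    Module.finrank_zero_of_subsingleton (M := (E.map (IsScalarTower.toAlgHom k A K)).H1)]
  simp

variable (k) in
/-- A finite module with all geometric fibres zero is zero. -/
theorem subsingleton_of_forall_geometric (H : Type u)
    [AddCommGroup H] [Module A H] [Module.Finite A H]
    (h : ∀ (L : Type u) [Field L] [Algebra k L] [IsAlgClosed L] [Algebra A L]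
      [IsScalarTower k A L], Subsingleton (L ⊗[A] H)) : Subsingleton H := by
  refine Module.annihilator_eq_top_iff.mp (eq_top_of_forall_geometric
    (k := k) (A := A) (Module.annihilator A H) fun L _ _ _ f => ?_)
  let := f.toRingHom.toAlgebra
  have : IsScalarTower k A L := IsScalarTower.of_algebraMap_eq fun c => (f.commutes c).symm
  exact (subsingleton_tensor_iff (A := A) (B := L) H).mp (h L)

/-- A global functional with value one spans, if all fibres have dimension one. -/
theorem exists_eq_smul_of_chi {E : Bdl C A} {P : C.R1 →ₐ[k] A} (hac : E.dual.Acyclic)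
    (hchi : ∀ (K : Type u) [Field K] [Algebra k K] [IsAlgClosed K] (f : A →ₐ[k] K),
      ((E.map f).dual).chi = 1)
    {σ : E.dual.H0} {m : E.L1} (hσ : E.ev P m ⟨σ.1, σ.2.2⟩ = 1) (t : E.dual.H0) :
    ∃ c : A, t = c • σ := by
  have := E.dual.finite_H0 hac
  let ℓ : E.dual.H0 →ₗ[A] A :=
    E.ev P m ∘ₗ Submodule.inclusion (fun _ h => h.2 : E.dual.H0 ≤ E.dual.L1)
  have hℓ : ℓ σ = 1 := hσ
  set N : Submodule A E.dual.H0 := Submodule.span A {σ}
  have : Subsingleton (E.dual.H0 ⧸ N) := by
    refine subsingleton_of_forall_geometric (A := A) k (E.dual.H0 ⧸ N) fun L _ _ _ _ _ => ?_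
    have hrank : Module.finrank L (L ⊗[A] E.dual.H0) = 1 := by
      have e := E.dual.finrank_tensor_H0 (K := L) hac
      rw [chi_congr (⟨mapDual _ E⟩ : E.dual.map (IsScalarTower.toAlgHom k A L) ≈
        (E.map (IsScalarTower.toAlgHom k A L)).dual), hchi L] at e
      exact_mod_cast e
    have hv : (1 : L) ⊗ₜ[A] σ ≠ 0 := fun h0 => by
      have e := congrArg ((TensorProduct.rid A L).toLinearMap ∘ₗ ℓ.lTensor L) h0
      simp [hℓ] at e
    refine subsingleton_of_forall_eq 0 fun y => ?_
    obtain ⟨w, rfl⟩ := LinearMap.lTensor_surjective L N.mkQ_surjective y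
    obtain ⟨c, rfl⟩ := exists_smul_eq_of_finrank_eq_one hrank hv w
    rw [TensorProduct.smul_tmul', LinearMap.lTensor_tmul, show N.mkQ σ = 0 from
      (Submodule.Quotient.mk_eq_zero N).mpr (Submodule.mem_span_singleton_self σ),
      TensorProduct.tmul_zero]
  have ht : t ∈ N := (Submodule.Quotient.mk_eq_zero N).mp (Subsingleton.elim _ _)
  obtain ⟨c, hc⟩ := Submodule.mem_span_singleton.mp ht
  exact ⟨c, hc.symm⟩

/-- **Evaluation at the point is injective on global functionals**: if a rigid bundle has inverse
acyclic at the point with fibres of characteristic one, then some functional has value one and all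
others are its multiples. -/
theorem ev_injective {E : Bdl C A} (z : C.R1 →ₐ[k] k) (hz : E.dual.AcyclicAt (C.cst A z))
    (hE : E.IsRigid (C.cst A z))
    (hchi : ∀ (K : Type u) [Field K] [Algebra k K] [IsAlgClosed K] (f : A →ₐ[k] K),
      ((E.map f).dual).chi = 1) :
    ∃ σ : E.dual.H0, (∃ m, E.ev (C.cst A z) m ⟨σ.1, σ.2.2⟩ = 1) ∧
      ∀ t : E.dual.H0, ∃ c : A, t = c • σ := by
  obtain ⟨m, σ, hσ⟩ := exists_H0_ev_eq_one hE hz
  exact ⟨σ, ⟨m, hσ⟩, exists_eq_smul_of_chi hz.acyclic hchi hσ⟩

end Bdl

end FermatAgent.Pic
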