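import Fermat.Agent.Pic.Coh.H1

/-!
# Global sections of a bundle without first cohomology

They form a finite projective module.
-/

set_option autoImplicit false

noncomputable section

universe u

open scoped TensorProduct

namespace FermatAgent.Pic

variable {k : Type u} [Field k] {C : Curve2 k} {A B : Type u} [CommRing A] [Algebra k A]
  [CommRing B] [Algebra k B]

namespace Curve2

theorem baseChange_res_injective [Algebra A B] [IsScalarTower k A B] {R : Type u} [CommRing R]
    [Algebra k R] [Algebra R C.R01] [IsScalarTower k R C.R01]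
    (hR : Function.Injective (algebraMap R C.R01)) :
    Function.Injective
      ((Algebra.TensorProduct.map (AlgHom.id A A) (IsScalarTower.toAlgHom k R C.R01) :
        A ⊗[k] R →ₐ[A] C.S01 A).toLinearMap.baseChange B) := by
  set g := (IsScalarTower.toAlgHom k R C.R01).toLinearMap
  have h : ∀ x : B ⊗[A] (A ⊗[k] R),
      TensorProduct.AlgebraTensorModule.cancelBaseChange k A B B C.R01
        ((Algebra.TensorProduct.map (AlgHom.id A A) (IsScalarTower.toAlgHom k R C.R01) :
          A ⊗[k] R →ₐ[A] C.S01 A).toLinearMap.baseChange B x) =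
      g.lTensor B (TensorProduct.AlgebraTensorModule.cancelBaseChange k A B B R x) := by
    intro x
    induction x using TensorProduct.induction_on with
    | zero => simp
    | add u v hu hv => simp only [map_add, hu, hv]
    | tmul b y =>
      induction y using TensorProduct.induction_on with
      | zero => simp
      | add u v hu hv => simp [TensorProduct.tmul_add] at hu hv ⊢; rw [hu, hv]
      | tmul a r => simp [g]
  intro x y hxy
  refine (TensorProduct.AlgebraTensorModule.cancelBaseChange k A B B R).injective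
    (Module.Flat.lTensor_preserves_injective_linearMap (M := B) g hR ?_)
  rw [← h, ← h, hxy]

/-- Restriction from the first chart stays injective after base change. -/
theorem baseChange_res0_injective [Algebra A B] [IsScalarTower k A B] :
    Function.Injective ((C.res0 A).toLinearMap.baseChange B) :=
  baseChange_res_injective C.inj0

/-- Restriction from the second chart stays injective after base change. -/
theorem baseChange_res1_injective [Algebra A B] [IsScalarTower k A B] :
    Function.Injective ((C.res1 A).toLinearMap.baseChange B) :=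
  baseChange_res_injective C.inj1

end Curve2

section Lattice

variable {S S01 : Type u} [CommRing S] [CommRing S01] [Algebra A S] [Algebra A S01]
  {ρ : S →ₐ[A] S01} {M : Type u} [AddCommGroup M] [Module A M] [Module S01 M]
  [IsScalarTower A S01 M]

/-- The submodule defined by a lattice. -/
def lsub (l : Lat ρ.toRingHom M) : Submodule A M :=
  ⨅ i, (ρ.toLinearMap.range).comap ((l.φ i).restrictScalars A)

theorem mem_lsub {l : Lat ρ.toRingHom M} {m : M} :
    m ∈ lsub l ↔ ∀ i, l.φ i m ∈ ρ.range := by simp [lsub]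

variable (hρ : Function.Injective ρ) (l : Lat ρ.toRingHom M)

/-- The coordinates on a lattice. -/
def lcoord : lsub l →ₗ[A] (Fin l.n → S) :=
  LinearMap.pi fun i =>
    (LinearEquiv.ofInjective ρ.toLinearMap hρ).symm.toLinearMap ∘ₗ
      LinearMap.codRestrict ρ.toLinearMap.range (((l.φ i).restrictScalars A).domRestrict (lsub l))
        fun m => by
          obtain ⟨s, hs⟩ := mem_lsub.mp m.2 i
          exact ⟨s, hs⟩

theorem ρ_lcoord (m : lsub l) (i : Fin l.n) : ρ (lcoord hρ l m i) = l.φ i m.1 :=
  congrArg Subtype.val ((LinearEquiv.ofInjective ρ.toLinearMap hρ).apply_symm_apply _)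

/-- The section of a lattice with given coordinates. -/
def lbuild (i : Fin l.n) : S →ₗ[A] lsub l :=
  LinearMap.codRestrict (lsub l) ((LinearMap.toSpanSingleton S01 M (l.p i)).restrictScalars A ∘ₗ
    ρ.toLinearMap) fun s => mem_lsub.mpr fun j => by
      show l.φ j (ρ s • l.p i) ∈ ρ.range
      rw [map_smul, smul_eq_mul]
      obtain ⟨t, ht⟩ := l.mem j i
      exact ⟨s * t, (map_mul ρ s t).trans (congrArg (ρ s * ·) ht)⟩

theorem sum_lbuild_lcoord :
    ∑ i, lbuild l i ∘ₗ (LinearMap.proj i ∘ₗ lcoord hρ l) = LinearMap.id := by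
  refine LinearMap.ext fun m => Subtype.ext ?_
  simp only [LinearMap.coe_sum, Finset.sum_apply, LinearMap.coe_comp, Function.comp_apply,
    LinearMap.coe_proj, Function.eval, LinearMap.id_apply, AddSubmonoidClass.coe_finsetSum]
  refine Eq.trans (Finset.sum_congr rfl fun i _ => ?_) (l.sum_eq m.1)
  show ρ (lcoord hρ l m i) • l.p i = _
  rw [ρ_lcoord]

include hρ in
theorem projective_lsub [Module.Free A S] : Module.Projective A (lsub l) :=
  Module.Projective.of_split (lcoord hρ l) (∑ i, lbuild l i ∘ₗ LinearMap.proj i)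
    (by rw [← sum_lbuild_lcoord hρ l]; ext m; simp)

include hρ in
/-- The inclusion of a lattice stays injective after base change. -/
theorem baseChange_subtype_injective (B : Type u) [CommRing B] [Algebra A B]
    (hB : Function.Injective (ρ.toLinearMap.baseChange B)) :
    Function.Injective ((lsub l).subtype.baseChange B) := by
  rw [← LinearMap.ker_eq_bot, LinearMap.ker_eq_bot']
  intro y hy
  have h : ∀ i, (LinearMap.proj i ∘ₗ lcoord hρ l).baseChange B y = 0 := fun i => by
    refine hB ?_
    rw [map_zero, ← LinearMap.comp_apply, ← LinearMap.baseChange_comp,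
      show ρ.toLinearMap ∘ₗ LinearMap.proj i ∘ₗ lcoord hρ l =
        ((l.φ i).restrictScalars A) ∘ₗ (lsub l).subtype from
          LinearMap.ext fun m => ρ_lcoord hρ l m i, LinearMap.baseChange_comp,
      LinearMap.comp_apply, hy, map_zero]
  have e := congrArg (fun φ : lsub l →ₗ[A] lsub l => φ.baseChange B y) (sum_lbuild_lcoord hρ l)
  simp only [LinearMap.baseChange_id, LinearMap.id_apply] at e
  rw [← e]
  have : ∀ s : Finset (Fin l.n),
      (∑ i ∈ s, lbuild l i ∘ₗ (LinearMap.proj i ∘ₗ lcoord hρ l)).baseChange B y = 0 := fun s => by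
    induction s using Finset.induction_on with
    | empty => simp
    | insert i s hi ih =>
      rw [Finset.sum_insert hi, LinearMap.baseChange_add, LinearMap.add_apply, ih, add_zero,
        LinearMap.baseChange_comp, LinearMap.comp_apply, h i, map_zero]
  exact this _

end Lattice

namespace Bdl

theorem projective_L0 (E : Bdl C A) : Module.Projective A E.L0 :=
  projective_lsub (ρ := C.res0 A) (C.res0_injective A) E.l0

theorem projective_L1 (E : Bdl C A) : Module.Projective A E.L1 :=
  projective_lsub (ρ := C.res1 A) (C.res1_injective A) E.l1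

theorem projective_M (E : Bdl C A) : Module.Projective A E.M := by
  refine Module.Projective.of_split
    (LinearMap.pi fun i => (E.l0.φ i).restrictScalars A : E.M →ₗ[A] (Fin E.l0.n → C.S01 A))
    (∑ i, (LinearMap.toSpanSingleton (C.S01 A) E.M (E.l0.p i)).restrictScalars A ∘ₗ
      LinearMap.proj i) (LinearMap.ext fun m => ?_)
  simp only [LinearMap.coe_comp, Function.comp_apply, LinearMap.coe_sum, Finset.sum_apply]
  exact E.l0.sum_eq m

/-- The difference map of the two lattices. -/
def diffMap (E : Bdl C A) : E.L0 × E.L1 →ₗ[A] E.M :=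
  LinearMap.coprod E.L0.subtype (-E.L1.subtype)

/-- Global sections as pairs. -/
def diag (E : Bdl C A) : E.H0 →ₗ[A] E.L0 × E.L1 :=
  LinearMap.prod (Submodule.inclusion inf_le_left) (Submodule.inclusion inf_le_right)

/-- For an acyclic bundle the global sections are a direct summand of the pairs of sections on the
two charts, compatibly with a splitting of the difference map. -/
theorem exists_retraction_diag (E : Bdl C A) (h : E.Acyclic) :
    ∃ (r : E.L0 × E.L1 →ₗ[A] E.H0) (s : E.M →ₗ[A] E.L0 × E.L1),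
      r ∘ₗ E.diag = LinearMap.id ∧
        (E.L0.subtype ∘ₗ LinearMap.fst A _ _) =
          (E.L0.subtype ∘ₗ LinearMap.fst A _ _) ∘ₗ s ∘ₗ E.diffMap + E.H0.subtype ∘ₗ r := by
  have := E.projective_M
  have hsurj : Function.Surjective E.diffMap := fun m => by
    obtain ⟨a, ha, b, hb, hab⟩ := Submodule.mem_sup.mp (h ▸ trivial : m ∈ E.L0 ⊔ E.L1)
    refine ⟨(⟨a, ha⟩, ⟨-b, neg_mem hb⟩), ?_⟩
    simp [diffMap, ← hab]
  obtain ⟨s, hs⟩ := Module.projective_lifting_property E.diffMap LinearMap.id hsurj
  let q : E.L0 × E.L1 →ₗ[A] E.L0 × E.L1 := LinearMap.id - s ∘ₗ E.diffMap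
  have hq : ∀ x, ((q x).1 : E.M) = (q x).2 := fun x => by
    have : E.diffMap (q x) = 0 := by
      simp [q, show E.diffMap (s (E.diffMap x)) = E.diffMap x from LinearMap.congr_fun hs _]
    simpa [diffMap, sub_eq_zero, ← sub_eq_add_neg] using this
  let r : E.L0 × E.L1 →ₗ[A] E.H0 :=
    LinearMap.codRestrict E.H0 (E.L0.subtype ∘ₗ LinearMap.fst A _ _ ∘ₗ q) fun x =>
      ⟨(q x).1.2, by show ((q x).1 : E.M) ∈ E.L1; rw [hq x]; exact (q x).2.2⟩
  refine ⟨r, s, LinearMap.ext fun m => Subtype.ext ?_, LinearMap.ext fun x => ?_⟩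
  · have : E.diffMap (E.diag m) = 0 := by simp [diffMap, diag]
    show ((q (E.diag m)).1 : E.M) = m.1
    simp only [q, LinearMap.sub_apply, LinearMap.id_apply, LinearMap.comp_apply, this,
      map_zero, sub_zero]
    rfl
  · simp [r, q]

/-- **Global sections of an acyclic bundle form a projective module.** -/
theorem projective_H0 (E : Bdl C A) (h : E.Acyclic) : Module.Projective A E.H0 := by
  have := E.projective_L0
  have := E.projective_L1
  obtain ⟨r, s, hr, -⟩ := E.exists_retraction_diag h
  exact Module.Projective.of_split E.diag r hr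

section Finite

variable (C) in
/-- The regular functions on the first chart with poles of order at most `N` at infinity. -/
def V0 (N : ℕ) : Submodule k C.R0 :=
  ((IsScalarTower.toAlgHom k C.R1 C.R01).toLinearMap.range).comap
    ((LinearMap.mulLeft k (algebraMap C.R1 C.R01 C.y ^ N)) ∘ₗ
      (IsScalarTower.toAlgHom k C.R0 C.R01).toLinearMap)

variable (C) in
/-- A regular function on the first chart has poles of order at most `N` if `y ^ N` times it is
regular on the second chart. -/
theorem mem_V0 {N : ℕ} {r : C.R0} : r ∈ V0 C N ↔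
    ∃ r1, algebraMap C.R1 C.R01 r1 = algebraMap C.R1 C.R01 C.y ^ N * algebraMap C.R0 C.R01 r := by
  simp [V0]

variable (C) in
theorem finite_quot_y : Module.Finite k (C.R1 ⧸ Ideal.span {C.y}) := by
  obtain ⟨d, b, hb⟩ := C.fin1
  refine Module.Finite.of_surjective
    (∑ i, (LinearMap.proj i).smulRight (Ideal.Quotient.mk (Ideal.span {C.y}) (b i)) :
      (Fin d → k) →ₗ[k] C.R1 ⧸ Ideal.span {C.y}) fun q => ?_
  obtain ⟨r, rfl⟩ := Ideal.Quotient.mk_surjective q
  obtain ⟨c, hc, -⟩ := hb r
  refine ⟨fun i => (c i).coeff 0, ?_⟩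
  rw [hc, map_sum]
  simp only [LinearMap.coe_sum, Finset.sum_apply, LinearMap.smulRight_apply, LinearMap.coe_proj,
    Function.eval]
  refine Finset.sum_congr rfl fun i _ => ?_
  rw [map_mul, Algebra.smul_def]
  congr 1
  have hy : Ideal.Quotient.mk (Ideal.span {C.y}) C.y = 0 :=
    Ideal.Quotient.eq_zero_iff_mem.mpr (Ideal.mem_span_singleton_self _)
  rw [show Ideal.Quotient.mk (Ideal.span {C.y}) (Polynomial.aeval C.y (c i)) =
    Polynomial.aeval (Ideal.Quotient.mk (Ideal.span {C.y}) C.y) (c i) from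
      (Polynomial.aeval_algHom_apply (Ideal.Quotient.mkₐ k (Ideal.span {C.y})) C.y (c i)).symm,
    hy, ← Polynomial.coeff_zero_eq_aeval_zero']

variable (C) in
theorem finite_V0 (N : ℕ) : Module.Finite k (V0 C N) := by
  induction N with
  | zero =>
    refine Module.Finite.iff_fg.mpr ⟨{1}, le_antisymm (Submodule.span_le.mpr ?_) fun r hr => ?_⟩
    · rintro _ hx
      obtain rfl : _ = (1 : C.R0) := by simpa using hx
      exact (mem_V0 C).mpr ⟨1, by simp⟩
    · obtain ⟨r1, h⟩ := (mem_V0 C).mp hr
      obtain ⟨c, rfl⟩ := C.glob r r1 (by rw [h, pow_zero, one_mul])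
      rw [Algebra.algebraMap_eq_smul_one]
      exact Submodule.smul_mem _ c (Submodule.subset_span (by simp))
  | succ N ih =>
    let wit : V0 C (N + 1) →ₗ[k] C.R1 :=
      (LinearEquiv.ofInjective (IsScalarTower.toAlgHom k C.R1 C.R01).toLinearMap C.inj1).symm ∘ₗ
        LinearMap.codRestrict (IsScalarTower.toAlgHom k C.R1 C.R01).toLinearMap.range
          (((LinearMap.mulLeft k (algebraMap C.R1 C.R01 C.y ^ (N + 1))) ∘ₗ
          (IsScalarTower.toAlgHom k C.R0 C.R01).toLinearMap).domRestrict (V0 C (N + 1)))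
          fun r => r.2
    have hwit : ∀ r : V0 C (N + 1), algebraMap C.R1 C.R01 (wit r) =
        algebraMap C.R1 C.R01 C.y ^ (N + 1) * algebraMap C.R0 C.R01 r.1 := fun r =>
      congrArg Subtype.val ((LinearEquiv.ofInjective
        (IsScalarTower.toAlgHom k C.R1 C.R01).toLinearMap C.inj1).apply_symm_apply _)
    let g : V0 C (N + 1) →ₗ[k] C.R1 ⧸ Ideal.span {C.y} :=
      (Ideal.Quotient.mkₐ k _).toLinearMap ∘ₗ wit
    have hker : ∀ r ∈ LinearMap.ker g, r.1 ∈ V0 C N := fun r hr => by
      obtain ⟨u, hu⟩ := Ideal.mem_span_singleton'.mp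
        (Ideal.Quotient.eq_zero_iff_mem.mp (LinearMap.mem_ker.mp hr))
      refine (mem_V0 C).mpr ⟨u, ?_⟩
      have hy : algebraMap C.R1 C.R01 C.y ≠ 0 := fun h0 => by
        have := C.xy; rw [h0, mul_zero] at this; exact zero_ne_one this
      refine mul_right_cancel₀ hy ?_
      rw [← map_mul, hu, hwit, pow_succ]
      ring
    have := finite_quot_y C
    have := ih
    refine ⟨Submodule.fg_of_fg_map_of_fg_inf_ker g (IsNoetherian.noetherian _) ?_⟩
    rw [top_inf_eq]
    have : Module.Finite k (LinearMap.ker g) := Module.Finite.of_injective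
      (LinearMap.codRestrict (V0 C N) ((V0 C (N + 1)).subtype ∘ₗ (LinearMap.ker g).subtype)
        fun r => hker r.1 r.2)
      fun a b h => Subtype.ext (Subtype.ext (congrArg Subtype.val h :))
    exact Module.Finite.iff_fg.mp inferInstance

variable (C A) in
/-- The functions on the first chart with poles of order at most `N`, over `A`. -/
def V0A (N : ℕ) : Submodule A (C.S01 A) :=
  (LinearMap.range (TensorProduct.AlgebraTensorModule.lTensor A A (V0 C N).subtype)).map
    (C.res0 A).toLinearMap

theorem finite_V0A (N : ℕ) : Module.Finite A (V0A C A N) := by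
  have := finite_V0 C N
  rw [V0A, ← LinearMap.range_comp]
  exact Module.Finite.range _

theorem Y_pow_mul_mem_of_mem_V0A {N : ℕ} {x : C.S01 A} (hx : x ∈ V0A C A N) :
    C.res1 A (C.yA A) ^ N * x ∈ (C.res1 A).range := by
  obtain ⟨_, ⟨w, rfl⟩, rfl⟩ := hx
  induction w using TensorProduct.induction_on with
  | zero => simp
  | add u v hu hv => rw [map_add, map_add, mul_add]; exact add_mem hu hv
  | tmul a r =>
    obtain ⟨r1, hr1⟩ := (mem_V0 C).mp r.2
    exact ⟨a ⊗ₜ r1, by simp [Curve2.res0, Curve2.res1, Curve2.yA, hr1]⟩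

theorem mem_range_res0_of_mem_V0A {N : ℕ} {x : C.S01 A} (hx : x ∈ V0A C A N) :
    x ∈ (C.res0 A).range := by
  obtain ⟨a, -, rfl⟩ := hx; exact ⟨a, rfl⟩

/-- A function on the first chart whose product with `y ^ N` is regular on the second chart has
poles of order at most `N`. -/
theorem mem_V0A {N : ℕ} {s : C.S0 A}
    (hs : C.res1 A (C.yA A) ^ N * C.res0 A s ∈ (C.res1 A).range) :
    C.res0 A s ∈ V0A C A N := by
  let g : C.R0 →ₗ[k] C.R01 ⧸ (IsScalarTower.toAlgHom k C.R1 C.R01).toLinearMap.range :=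
    Submodule.mkQ _ ∘ₗ (LinearMap.mulLeft k (algebraMap C.R1 C.R01 C.y ^ N)) ∘ₗ
      (IsScalarTower.toAlgHom k C.R0 C.R01).toLinearMap
  have hex : Function.Exact (V0 C N).subtype g := by
    intro r
    simp only [g, LinearMap.coe_comp, Function.comp_apply, Submodule.mkQ_apply,
      Submodule.Quotient.mk_eq_zero, Submodule.coe_subtype, Subtype.range_coe_subtype]
    exact Iff.rfl
  refine ⟨s, ?_, rfl⟩
  have hex' := Module.Flat.lTensor_exact A hex
  refine (hex' s).mp ?_
  let m : C.S01 A →ₗ[k]
      A ⊗[k] (C.R01 ⧸ (IsScalarTower.toAlgHom k C.R1 C.R01).toLinearMap.range) :=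
    (Submodule.mkQ _).lTensor A
  have e : ∀ s : C.S0 A, g.lTensor A s = m (C.res1 A (C.yA A) ^ N * C.res0 A s) := by
    intro s
    induction s using TensorProduct.induction_on with
    | zero => simp
    | add u v hu hv => rw [map_add, map_add, mul_add, map_add, hu, hv]
    | tmul a r => simp [m, g, Curve2.res0, Curve2.res1, Curve2.yA]
  obtain ⟨s1, hs1⟩ := hs
  rw [e, ← hs1]
  clear hs1 e
  induction s1 using TensorProduct.induction_on with
  | zero => simp
  | add u v hu hv => simp only [map_add] at hu hv ⊢; rw [hu, hv, add_zero]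
  | tmul a r =>
    show a ⊗ₜ[k] Submodule.Quotient.mk
      ((IsScalarTower.toAlgHom k C.R1 C.R01).toLinearMap r) = 0
    rw [(Submodule.Quotient.mk_eq_zero (IsScalarTower.toAlgHom k C.R1 C.R01).toLinearMap.range).mpr
      ⟨r, rfl⟩, TensorProduct.tmul_zero]

theorem mul_Y_pow_mem (n : ℕ) {s : C.S01 A} (hs : s ∈ (C.res1 A).range) :
    C.res1 A (C.yA A) ^ n * s ∈ (C.res1 A).range := by
  rw [← map_pow]; exact mul_mem ⟨_, rfl⟩ hs

/-- A uniform bound on the orders of poles. -/
theorem exists_bound {ι κ : Type} [Finite ι] [Finite κ] (c : ι → κ → C.S01 A) :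
    ∃ N : ℕ, ∀ i j, C.res1 A (C.yA A) ^ N * c i j ∈ (C.res1 A).range := by
  classical
  have := Fintype.ofFinite ι
  have := Fintype.ofFinite κ
  choose e a he using fun p : ι × κ => C.exists_res1 A (c p.1 p.2)
  refine ⟨Finset.univ.sup e, fun i j => ?_⟩
  obtain ⟨d, hd⟩ := Nat.le.dest (Finset.le_sup (f := e) (Finset.mem_univ (i, j)))
  rw [← hd, add_comm, pow_add, mul_assoc, he (i, j)]
  exact mul_Y_pow_mem d ⟨_, rfl⟩

/-- **Global sections of an acyclic bundle are finite.** -/
theorem finite_H0 (E : Bdl C A) (h : E.Acyclic) : Module.Finite A E.H0 := by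
  classical
  obtain ⟨r, s, hr, -⟩ := E.exists_retraction_diag h
  set Y := C.res1 A (C.yA A)
  obtain ⟨N₀, hN₀⟩ := exists_bound (fun i j => E.l0.φ i (E.l1.p j))
  choose e he using fun p : Fin E.l1.n × Fin E.l0.n => C.exists_res0 A (E.l1.φ p.1 (E.l0.p p.2))
  set N := Finset.univ.sup e
  -- coordinates of a global section lie in finite modules
  let Vb : Submodule A (C.S01 A) :=
    (V0A C A N).map (LinearMap.mulLeft A (Y ^ N))
  have h0 : ∀ m ∈ E.H0, ∀ i, E.l0.φ i m ∈ V0A C A N₀ := fun m hm i => by
    obtain ⟨a, ha⟩ := mem_L0.mp hm.1 i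
    refine (show E.l0.φ i m = C.res0 A a from ha.symm) ▸ mem_V0A ?_
    rw [show C.res0 A a = E.l0.φ i m from ha]
    conv => arg 2; rw [← E.l1.sum_eq m, map_sum, Finset.mul_sum]
    refine sum_mem fun j _ => ?_
    rw [map_smul, smul_eq_mul, mul_left_comm]
    exact mul_mem (mem_L1.mp hm.2 j) (hN₀ i j)
  have h1 : ∀ m ∈ E.H0, ∀ j, E.l1.φ j m ∈ Vb := fun m hm j => by
    have ht : C.tA A ^ N * E.l1.φ j m ∈ (C.res0 A).range := by
      conv => arg 2; rw [← E.l0.sum_eq m, map_sum, Finset.mul_sum]
      refine sum_mem fun i _ => ?_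
      rw [map_smul, smul_eq_mul, mul_left_comm]
      refine mul_mem (mem_L0.mp hm.1 i) ?_
      obtain ⟨d, hd⟩ := Nat.le.dest (Finset.le_sup (f := e) (Finset.mem_univ (j, i)))
      obtain ⟨a, ha⟩ := he (j, i)
      rw [show N = e (j, i) + d from hd.symm, add_comm, pow_add, mul_assoc, ha,
        Curve2.tA, ← map_pow]
      exact mul_mem ⟨_, rfl⟩ ⟨_, rfl⟩
    obtain ⟨a, ha⟩ := ht
    have hYt : Y ^ N * C.tA A ^ N = 1 := by
      rw [← mul_pow, mul_comm, C.tA_mul_yA, one_pow]
    refine ⟨C.tA A ^ N * E.l1.φ j m, ha ▸ mem_V0A ?_, ?_⟩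
    · rw [show C.res0 A a = C.tA A ^ N * E.l1.φ j m from ha, ← mul_assoc, hYt, one_mul]
      exact mem_L1.mp hm.2 j
    · show Y ^ N * (C.tA A ^ N * E.l1.φ j m) = _
      rw [← mul_assoc, hYt, one_mul]
  have := finite_V0A (C := C) (A := A) N
  have := finite_V0A (C := C) (A := A) N₀
  have : Module.Finite A Vb := Module.Finite.map _ _
  let P0 : (Fin E.l0.n → V0A C A N₀) →ₗ[A] E.L0 :=
    LinearMap.codRestrict E.L0 (∑ i, (LinearMap.toSpanSingleton (C.S01 A) E.M (E.l0.p i)
      ).restrictScalars A ∘ₗ (V0A C A N₀).subtype ∘ₗ LinearMap.proj i) fun c => by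
      simp only [LinearMap.coe_sum, Finset.sum_apply]
      refine sum_mem fun i _ => ?_
      obtain ⟨a, ha⟩ := mem_range_res0_of_mem_V0A (c i).2
      show (c i : C.S01 A) • E.l0.p i ∈ E.L0
      rw [← show C.res0 A a = (c i : C.S01 A) from ha]; exact E.res0_smul_mem a (E.p_mem_L0 i)
  let P1 : (Fin E.l1.n → Vb) →ₗ[A] E.L1 :=
    LinearMap.codRestrict E.L1 (∑ j, (LinearMap.toSpanSingleton (C.S01 A) E.M (E.l1.p j)
      ).restrictScalars A ∘ₗ Vb.subtype ∘ₗ LinearMap.proj j) fun c => by
      simp only [LinearMap.coe_sum, Finset.sum_apply]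
      refine sum_mem fun j _ => ?_
      show (c j : C.S01 A) • E.l1.p j ∈ E.L1
      obtain ⟨x, hx, hxc⟩ := (c j).2
      obtain ⟨z, hz⟩ := Y_pow_mul_mem_of_mem_V0A hx
      rw [← hxc, LinearMap.mulLeft_apply, ← show C.res1 A z = Y ^ N * x from hz]
      exact E.res1_smul_mem z (E.p_mem_L1 j)
  refine Module.Finite.of_surjective (r ∘ₗ P0.prodMap P1) fun m =>
    ⟨(fun i => ⟨E.l0.φ i m.1, h0 _ m.2 i⟩, fun j => ⟨E.l1.φ j m.1, h1 _ m.2 j⟩), ?_⟩
  refine Eq.trans (congrArg r ?_) (LinearMap.congr_fun hr m)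
  refine Prod.ext (Subtype.ext ?_) (Subtype.ext ?_)
  · simp [P0, diag]; exact E.l0.sum_eq m.1
  · simp [P1, diag]; exact E.l1.sum_eq m.1

end Finite

end Bdl

end FermatAgent.Pic
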