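import Fermat.Agent.Pic.Coh.Iso

/-!
# The first cohomology

It is finite and commutes with change of parameters; its vanishing after change of parameters is
governed by its annihilator, and high twists make it vanish.
-/

set_option autoImplicit false

noncomputable section

universe u

open scoped TensorProduct

namespace FermatAgent.Pic

variable {k : Type u} [Field k] {C : Curve2 k} {A B : Type u} [CommRing A] [Algebra k A]
  [CommRing B] [Algebra k B]

namespace Curve2

variable (C A) in
/-- The second chart is spanned by products of powers of `y` with finitely many elements. -/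
theorem exists_span_S1 : ∃ (d : ℕ) (b : Fin d → C.R1), Submodule.span A
    (Set.range fun p : Fin d × ℕ => C.yA A ^ p.2 * (1 : A) ⊗ₜ[k] b p.1) = ⊤ := by
  obtain ⟨d, b, hb⟩ := C.fin1
  refine ⟨d, b, eq_top_iff.mpr fun s _ => ?_⟩
  induction s using TensorProduct.induction_on with
  | zero => exact zero_mem _
  | add u v hu hv => exact add_mem (hu trivial) (hv trivial)
  | tmul a r =>
    rw [show a ⊗ₜ[k] r = a • ((1 : A) ⊗ₜ[k] r) by
      rw [TensorProduct.smul_tmul', smul_eq_mul, mul_one]]
    refine Submodule.smul_mem _ a ?_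
    obtain ⟨c, hc, -⟩ := hb r
    rw [hc, TensorProduct.tmul_sum]
    refine sum_mem fun i _ => ?_
    induction c i using Polynomial.induction_on' with
    | add p q hp hq => rw [map_add, add_mul, TensorProduct.tmul_add]; exact add_mem hp hq
    | monomial n e =>
      rw [Polynomial.aeval_monomial, ← Algebra.smul_def, smul_mul_assoc, TensorProduct.tmul_smul]
      have h : (1 : A) ⊗ₜ[k] (C.y ^ n * b i) = C.yA A ^ n * (1 : A) ⊗ₜ[k] b i := by
        rw [yA, Algebra.TensorProduct.tmul_pow, one_pow, Algebra.TensorProduct.tmul_mul_tmul,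
          one_mul]
      rw [h, ← IsScalarTower.algebraMap_smul A e]
      exact Submodule.smul_mem _ _ (Submodule.subset_span ⟨(i, n), rfl⟩)

end Curve2

namespace Bdl

theorem tA_pow_smul_mem_L0 (E : Bdl C A) {m : E.M} (hm : m ∈ E.L0) (n : ℕ) :
    C.tA A ^ n • m ∈ E.L0 := by
  rw [Curve2.tA, ← map_pow]
  exact E.res0_smul_mem _ hm

/-- **Finiteness of the first cohomology**: `H1` of a bundle over `A` is a finite `A`-module. -/
theorem finite_H1 (E : Bdl C A) : Module.Finite A E.H1 := by
  classical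
  obtain ⟨d, b, hb⟩ := C.exists_span_S1 A
  set Y := C.res1 A (C.yA A)
  let g : Fin E.l1.n × Fin d → E.M := fun q => C.res1 A ((1 : A) ⊗ₜ[k] b q.2) • E.l1.p q.1
  have hg1 : ∀ q, g q ∈ E.L1 := fun q => E.res1_smul_mem _ (E.p_mem_L1 _)
  choose N hN using fun q => E.exists_mem_L0 (g q)
  set N₀ := Finset.univ.sup N
  let gen : (Fin E.l1.n × Fin d) × Fin N₀ → E.H1 := fun q =>
    Submodule.Quotient.mk (C.tA A ^ (q.2 : ℕ) • g q.1)
  suffices h : Submodule.span A (Set.range gen) = ⊤ from
    ⟨h ▸ Submodule.fg_span (Set.finite_range gen)⟩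
  let W : Submodule A E.M := (Submodule.span A (Set.range gen)).comap (E.L0 ⊔ E.L1).mkQ
  have hW0 : ∀ m ∈ E.L0, m ∈ W := fun m hm => by
    rw [Submodule.mem_comap, show (E.L0 ⊔ E.L1).mkQ m = 0 from
      (Submodule.Quotient.mk_eq_zero _).mpr (Submodule.mem_sup_left hm)]
    exact zero_mem _
  have hW1 : ∀ m ∈ E.L1, m ∈ W := fun m hm => by
    rw [Submodule.mem_comap, show (E.L0 ⊔ E.L1).mkQ m = 0 from
      (Submodule.Quotient.mk_eq_zero _).mpr (Submodule.mem_sup_right hm)]
    exact zero_mem _
  have hYt : C.tA A * Y = 1 := C.tA_mul_yA A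
  have key : ∀ (n j : ℕ) q, C.tA A ^ n • Y ^ j • g q ∈ W := fun n j q => by
    rcases le_or_gt n j with h | h
    · refine hW1 _ ?_
      obtain ⟨e, rfl⟩ := Nat.le.dest h
      rw [smul_smul, pow_add, ← mul_assoc, ← mul_pow, hYt, one_pow, one_mul,
        show Y ^ e = C.res1 A (C.yA A ^ e) from (map_pow _ _ _).symm]
      exact E.res1_smul_mem _ (hg1 q)
    · obtain ⟨e, rfl⟩ := Nat.le.dest h.le
      rw [smul_smul, add_comm, pow_add, mul_assoc, ← mul_pow, hYt, one_pow, mul_one]
      rcases le_or_gt N₀ e with he | he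
      · refine hW0 _ ?_
        obtain ⟨i, rfl⟩ := Nat.le.dest ((Finset.le_sup (f := N) (Finset.mem_univ q)).trans he)
        rw [add_comm, pow_add, mul_smul]
        exact E.tA_pow_smul_mem_L0 (hN q) i
      · exact Submodule.subset_span ⟨(q, ⟨e, he⟩), rfl⟩
  have hall : ∀ m : E.M, m ∈ W := fun m => by
    obtain ⟨n, hn⟩ := E.exists_mem_L1 m
    obtain ⟨c, hc⟩ := E.mem_L1_iff_exists.mp hn
    have hm : m = C.tA A ^ n • ∑ i, C.res1 A (c i) • E.l1.p i := by
      rw [← hc, smul_smul, ← mul_pow, hYt, one_pow, one_smul]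
    rw [hm, Finset.smul_sum]
    refine sum_mem fun i _ => ?_
    have hci : c i ∈ Submodule.span A
        (Set.range fun p : Fin d × ℕ => C.yA A ^ p.2 * (1 : A) ⊗ₜ[k] b p.1) := hb ▸ trivial
    generalize c i = s at hci ⊢
    induction hci using Submodule.span_induction with
    | mem x hx =>
      obtain ⟨⟨l, j⟩, rfl⟩ := hx
      rw [map_mul, map_pow, mul_smul]
      exact key n j (i, l)
    | zero => rw [map_zero, zero_smul, smul_zero]; exact zero_mem _
    | add x y _ _ hx hy => rw [map_add, add_smul, smul_add]; exact add_mem hx hy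
    | smul a x _ hx =>
      rw [map_smul, smul_assoc, smul_comm (C.tA A ^ n) a]
      exact Submodule.smul_mem _ a hx
  refine eq_top_iff.mpr fun x _ => ?_
  obtain ⟨m, rfl⟩ := Submodule.mkQ_surjective _ x
  exact hall m

theorem map01_res0_tmul (f : A →ₐ[k] B) (r : C.R0) :
    C.map01 f (C.res0 A ((1 : A) ⊗ₜ[k] r)) = C.res0 B ((1 : B) ⊗ₜ[k] r) := by
  rw [C.map01_res0]; simp [Curve2.map0]

section BaseChange

variable [Algebra A B] [IsScalarTower k A B]

local notation "φAB" => IsScalarTower.toAlgHom k A B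

theorem mapIn_smul_base (E : Bdl C A) (a : A) (m : E.M) :
    E.mapIn φAB (a • m) = algebraMap A B a • E.mapIn φAB m := by
  rw [← algebraMap_smul (C.S01 A) a m, mapIn_smul, ← algebraMap_smul (C.S01 B) (algebraMap A B a)]
  simp [Curve2.map01, Algebra.TensorProduct.algebraMap_apply]

/-- The old sections with new scalars. -/
def baseMap (E : Bdl C A) : B ⊗[A] E.M →ₗ[B] (E.map φAB).M :=
  letI : Module A (E.map φAB).M := Module.compHom _ (algebraMap A B)
  haveI : IsScalarTower A B (E.map φAB).M :=
    ⟨fun a b n => by rw [Algebra.smul_def, mul_smul]; rfl⟩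
  LinearMap.liftBaseChange B
    ({ toFun := E.mapIn φAB
       map_add' := map_add _
       map_smul' := fun a m => E.mapIn_smul_base a m } : E.M →ₗ[A] (E.map φAB).M)

/-- The comparison map on a pure tensor. -/
theorem baseMap_tmul (E : Bdl C A) (b : B) (m : E.M) :
    E.baseMap (b ⊗ₜ[A] m) = b • E.mapIn φAB m := rfl

/-- A bundle over new parameters is the old one with new scalars. -/
theorem baseMap_bijective (E : Bdl C A) : Function.Bijective (E.baseMap (B := B)) := by
  classical
  -- a retraction through the coordinates of the first lattice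
  let Ψ : Fin E.l0.n → C.S01 B →ₗ[B] B ⊗[A] E.M := fun i =>
    TensorProduct.AlgebraTensorModule.lift
      (((LinearMap.lsmul B (C.R01 →ₗ[k] B ⊗[A] E.M)).flip
        { toFun := fun r => (1 : B) ⊗ₜ[A] (((1 : A) ⊗ₜ[k] r : C.S01 A) • E.l0.p i)
          map_add' := fun r r' => by rw [TensorProduct.tmul_add, add_smul, TensorProduct.tmul_add]
          map_smul' := fun c r => by
            rw [RingHom.id_apply,
              show ((1 : A) ⊗ₜ[k] (c • r) : C.S01 A) = algebraMap k A c • ((1 : A) ⊗ₜ[k] r) by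
                rw [TensorProduct.tmul_smul, algebraMap_smul],
              smul_assoc, TensorProduct.tmul_smul (algebraMap k A c) (1 : B), algebraMap_smul] }))
  have hΨ : ∀ i (s : C.S01 A), Ψ i (C.map01 φAB s) = (1 : B) ⊗ₜ[A] (s • E.l0.p i) := by
    intro i s
    induction s using TensorProduct.induction_on with
    | zero => simp
    | add u v hu hv => rw [map_add, map_add, hu, hv, add_smul, TensorProduct.tmul_add]
    | tmul a r =>
      show (algebraMap A B a) • ((1 : B) ⊗ₜ[A] (((1 : A) ⊗ₜ[k] r : C.S01 A) • E.l0.p i)) = _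
      rw [TensorProduct.smul_tmul', smul_eq_mul, mul_one, Algebra.algebraMap_eq_smul_one,
        TensorProduct.smul_tmul, ← smul_assoc, TensorProduct.smul_tmul' a, smul_eq_mul, mul_one]
  let ψ : (E.map φAB).M →ₗ[B] B ⊗[A] E.M :=
    ∑ i, Ψ i ∘ₗ ((E.map φAB).l0.φ i).restrictScalars B
  have h1 : ∀ x, ψ (E.baseMap x) = x := by
    intro x
    induction x using TensorProduct.induction_on with
    | zero => simp
    | add u v hu hv => rw [map_add, map_add, hu, hv]
    | tmul b m =>
      rw [baseMap_tmul, map_smul]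
      have : ψ (E.mapIn φAB m) = (1 : B) ⊗ₜ[A] m := by
        conv_rhs => rw [← E.l0.sum_eq m, TensorProduct.tmul_sum]
        simp only [ψ, LinearMap.coe_sum, Finset.sum_apply, LinearMap.coe_comp, Function.comp_apply,
          LinearMap.coe_restrictScalars]
        exact Finset.sum_congr rfl fun i _ => (congrArg (Ψ i) (E.map_φ0 φAB i m)).trans (hΨ i _)
      rw [this, TensorProduct.smul_tmul', smul_eq_mul, mul_one]
  refine ⟨Function.LeftInverse.injective h1, fun x => ?_⟩
  suffices x ∈ LinearMap.range (E.baseMap (B := B)) from this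
  rw [← (E.map φAB).l0.sum_eq x]
  refine sum_mem fun i _ => ?_
  induction (E.map φAB).l0.φ i x using TensorProduct.induction_on with
  | zero => rw [zero_smul]; exact zero_mem _
  | add u v hu hv => rw [add_smul]; exact add_mem hu hv
  | tmul b r =>
    refine ⟨b ⊗ₜ[A] (((1 : A) ⊗ₜ[k] r : C.S01 A) • E.l0.p i), ?_⟩
    rw [baseMap_tmul, mapIn_smul, mapIn_p0, ← smul_assoc]
    congr 1
    simp [Curve2.map01, TensorProduct.smul_tmul']

/-- The first lattice over new parameters is spanned by the old one. -/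
theorem L0_map_le (E : Bdl C A) :
    (E.map φAB).L0 ≤ Submodule.span B (E.mapIn φAB '' (E.L0 : Set E.M)) := by
  intro x hx
  obtain ⟨c, rfl⟩ := (E.map φAB).mem_L0_iff_exists.mp hx
  refine sum_mem fun i _ => ?_
  induction c i using TensorProduct.induction_on with
  | zero => rw [map_zero, zero_smul]; exact zero_mem _
  | add u v hu hv => rw [map_add, add_smul]; exact add_mem hu hv
  | tmul b r =>
    rw [show b ⊗ₜ[k] r = b • ((1 : B) ⊗ₜ[k] r) by
      rw [TensorProduct.smul_tmul', smul_eq_mul, mul_one], map_smul, smul_assoc]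
    refine Submodule.smul_mem _ b (Submodule.subset_span
      ⟨C.res0 A ((1 : A) ⊗ₜ[k] r) • E.l0.p i, E.res0_smul_mem _ (E.p_mem_L0 i), ?_⟩)
    rw [mapIn_smul, map01_res0_tmul]
    rfl

/-- The second lattice over new parameters is spanned by the old one. -/
theorem L1_map_le (E : Bdl C A) :
    (E.map φAB).L1 ≤ Submodule.span B (E.mapIn φAB '' (E.L1 : Set E.M)) :=
  L0_map_le E.swap

/-- The comparison map of quotients. -/
def quotMap (E : Bdl C A) (N : Submodule A E.M) (N' : Submodule B (E.map φAB).M)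
    (h : ∀ m ∈ N, E.mapIn φAB m ∈ N') : B ⊗[A] (E.M ⧸ N) →ₗ[B] (E.map φAB).M ⧸ N' :=
  letI : Module A ((E.map φAB).M ⧸ N') := Module.compHom _ (algebraMap A B)
  haveI : IsScalarTower A B ((E.map φAB).M ⧸ N') :=
    ⟨fun a b n => by rw [Algebra.smul_def, mul_smul]; rfl⟩
  LinearMap.liftBaseChange B (N.liftQ
    ({ toFun := fun m => Submodule.Quotient.mk (E.mapIn φAB m)
       map_add' := fun _ _ => by rw [map_add, Submodule.Quotient.mk_add]
       map_smul' := fun a m => (congrArg Submodule.Quotient.mk (E.mapIn_smul_base a m)).trans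
         (Submodule.Quotient.mk_smul _ _ _) } :
      E.M →ₗ[A] (E.map φAB).M ⧸ N')
    fun m hm => LinearMap.mem_ker.mpr ((Submodule.Quotient.mk_eq_zero _).mpr (h m hm)))

theorem quotMap_tmul (E : Bdl C A) (N : Submodule A E.M) (N' : Submodule B (E.map φAB).M)
    (h : ∀ m ∈ N, E.mapIn φAB m ∈ N') (b : B) (m : E.M) :
    E.quotMap N N' h (b ⊗ₜ[A] (Submodule.Quotient.mk m : E.M ⧸ N)) =
      b • (Submodule.Quotient.mk (E.mapIn φAB m) : (E.map φAB).M ⧸ N') := rfl

theorem quotMap_bijective (E : Bdl C A) (N : Submodule A E.M) (N' : Submodule B (E.map φAB).M)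
    (h : ∀ m ∈ N, E.mapIn φAB m ∈ N')
    (h' : N' ≤ Submodule.span B (E.mapIn φAB '' (N : Set E.M))) :
    Function.Bijective (E.quotMap N N' h) := by
  set e := LinearEquiv.ofBijective _ (E.baseMap_bijective (B := B))
  let q : (E.map φAB).M →ₗ[B] B ⊗[A] (E.M ⧸ N) :=
    (N.mkQ.baseChange B) ∘ₗ e.symm.toLinearMap
  have hq : ∀ m, q (E.mapIn φAB m) = (1 : B) ⊗ₜ[A] N.mkQ m := fun m => by
    have : e.symm (E.mapIn φAB m) = (1 : B) ⊗ₜ[A] m := by
      rw [LinearEquiv.symm_apply_eq]
      exact ((E.baseMap_tmul 1 m).trans (one_smul B _)).symm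
    simp [q, this]
  have hker : N' ≤ LinearMap.ker q := by
    refine h'.trans (Submodule.span_le.mpr ?_)
    rintro _ ⟨m, hm, rfl⟩
    rw [SetLike.mem_coe, LinearMap.mem_ker, hq, show N.mkQ m = 0 from
      (Submodule.Quotient.mk_eq_zero _).mpr hm, TensorProduct.tmul_zero]
  let q' : ((E.map φAB).M ⧸ N') →ₗ[B] B ⊗[A] (E.M ⧸ N) := N'.liftQ q hker
  have h1 : ∀ x, q' (E.quotMap N N' h x) = x := by
    intro x
    induction x using TensorProduct.induction_on with
    | zero => simp
    | add u v hu hv => rw [map_add, map_add, hu, hv]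
    | tmul b y =>
      obtain ⟨m, rfl⟩ := Submodule.Quotient.mk_surjective _ y
      rw [quotMap_tmul, map_smul, show q' (Submodule.Quotient.mk (E.mapIn φAB m)) =
        q (E.mapIn φAB m) from rfl, hq, TensorProduct.smul_tmul', smul_eq_mul, mul_one]
      rfl
  refine ⟨Function.LeftInverse.injective h1, fun y => ?_⟩
  obtain ⟨x, rfl⟩ := Submodule.Quotient.mk_surjective _ y
  obtain ⟨z, rfl⟩ := E.baseMap_bijective.2 x
  refine ⟨N.mkQ.baseChange B z, ?_⟩
  induction z using TensorProduct.induction_on with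
  | zero => simp
  | add u v hu hv => rw [map_add, map_add, map_add, Submodule.Quotient.mk_add, hu, hv]
  | tmul b m =>
    rw [LinearMap.baseChange_tmul, baseMap_tmul, Submodule.Quotient.mk_smul]
    exact E.quotMap_tmul N N' h b m

theorem L01_map_le (E : Bdl C A) :
    (E.map φAB).L0 ⊔ (E.map φAB).L1 ≤
      Submodule.span B (E.mapIn φAB '' ((E.L0 ⊔ E.L1 : Submodule A E.M) : Set E.M)) :=
  sup_le (E.L0_map_le.trans
    (Submodule.span_mono (Set.image_mono (SetLike.coe_subset_coe.mpr le_sup_left))))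
    (E.L1_map_le.trans
      (Submodule.span_mono (Set.image_mono (SetLike.coe_subset_coe.mpr le_sup_right))))

omit [Algebra A B] [IsScalarTower k A B] in
theorem mapIn_mem_sup (E : Bdl C A) (f : A →ₐ[k] B) (m : E.M) (hm : m ∈ E.L0 ⊔ E.L1) :
    E.mapIn f m ∈ (E.map f).L0 ⊔ (E.map f).L1 := by
  obtain ⟨a, ha, b, hb, rfl⟩ := Submodule.mem_sup.mp hm
  rw [map_add]
  exact Submodule.add_mem_sup (mapIn_mem_L0 _ ha) (mapIn_mem_L1 _ hb)

/-- **Base change of the first cohomology.** -/
def h1Equiv (E : Bdl C A) : B ⊗[A] E.H1 ≃ₗ[B] (E.map φAB).H1 :=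
  LinearEquiv.ofBijective _
    (E.quotMap_bijective (E.L0 ⊔ E.L1) ((E.map φAB).L0 ⊔ (E.map φAB).L1)
      (E.mapIn_mem_sup φAB) E.L01_map_le)

end BaseChange

/-- A bundle is acyclic exactly when its first cohomology vanishes. -/
theorem acyclic_iff_subsingleton (E : Bdl C A) : E.Acyclic ↔ Subsingleton E.H1 :=
  (Submodule.Quotient.subsingleton_iff).symm

/-- A finite module vanishes after change of scalars exactly when its annihilator generates. -/
theorem subsingleton_tensor_iff [Algebra A B] (H : Type u) [AddCommGroup H] [Module A H]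
    [Module.Finite A H] :
    Subsingleton (B ⊗[A] H) ↔ (Module.annihilator A H).map (algebraMap A B) = ⊤ := by
  constructor
  · intro h
    by_contra hne
    obtain ⟨q, hq, hle⟩ := Ideal.exists_le_maximal _ hne
    let p : PrimeSpectrum A := ⟨q.comap (algebraMap A B), inferInstance⟩
    have hp : p ∈ Module.support A H := by
      rw [Module.support_eq_zeroLocus]
      exact Ideal.map_le_iff_le_comap.mp hle
    rw [Module.mem_support_iff_nontrivial_residueField_tensorProduct] at hp
    let : Field (B ⧸ q) := Ideal.Quotient.field q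
    let ρ : p.asIdeal.ResidueField →+* B ⧸ q :=
      Ideal.ResidueField.lift p.asIdeal ((Ideal.Quotient.mk q).comp (algebraMap A B))
        (by intro x hx; exact Ideal.Quotient.eq_zero_iff_mem.mpr hx)
        (by
          intro x hx
          exact isUnit_iff_ne_zero.mpr fun h0 =>
            hx (Ideal.Quotient.eq_zero_iff_mem.mp h0 : algebraMap A B x ∈ q))
    let := ρ.toAlgebra
    have : IsScalarTower A p.asIdeal.ResidueField (B ⧸ q) := IsScalarTower.of_algebraMap_eq
      fun a => (Ideal.ResidueField.lift_algebraMap (I := p.asIdeal) _ _ _ a).symm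
    have h2 : Nontrivial ((B ⧸ q) ⊗[p.asIdeal.ResidueField] (p.asIdeal.ResidueField ⊗[A] H)) :=
      (Module.FaithfullyFlat.nontrivial_tensorProduct_iff_right _ _).mpr hp
    rw [(TensorProduct.AlgebraTensorModule.cancelBaseChange A p.asIdeal.ResidueField (B ⧸ q)
      (B ⧸ q) H).toEquiv.nontrivial_congr] at h2
    have := h
    have : Subsingleton ((B ⧸ q) ⊗[B] (B ⊗[A] H)) := inferInstance
    exact not_subsingleton ((B ⧸ q) ⊗[A] H)
      ((TensorProduct.AlgebraTensorModule.cancelBaseChange A B (B ⧸ q) (B ⧸ q)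
        H).toEquiv.symm.subsingleton)
  · intro h
    suffices key : ∀ b ∈ (Module.annihilator A H).map (algebraMap A B),
        ∀ x : B ⊗[A] H, b • x = 0 from
      subsingleton_of_forall_eq 0 fun x => by rw [← one_smul B x]; exact key 1 (h ▸ trivial) x
    intro b hb x
    rw [Ideal.map] at hb
    induction hb using Submodule.span_induction with
    | mem b hb =>
      obtain ⟨a, ha, rfl⟩ := hb
      rw [algebraMap_smul]
      induction x using TensorProduct.induction_on with
      | zero => exact smul_zero _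
      | add u v hu hv => rw [smul_add, hu, hv, add_zero]
      | tmul c m =>
        rw [← TensorProduct.tmul_smul, Module.mem_annihilator.mp ha m, TensorProduct.tmul_zero]
    | zero => exact zero_smul _ _
    | add u v _ _ hu hv => rw [add_smul, hu, hv, add_zero]
    | smul s u _ hu => rw [smul_eq_mul, mul_smul, hu, smul_zero]

/-- When a submodule fills the bundle after change of parameters. -/
theorem eq_top_iff_annihilator (E : Bdl C A) (f : A →ₐ[k] B) (N : Submodule A E.M)
    [Module.Finite A (E.M ⧸ N)] (N' : Submodule B (E.map f).M)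
    (h : ∀ m ∈ N, E.mapIn f m ∈ N')
    (h' : N' ≤ Submodule.span B (E.mapIn f '' (N : Set E.M))) :
    N' = ⊤ ↔ (Module.annihilator A (E.M ⧸ N)).map f.toRingHom = ⊤ := by
  let := f.toRingHom.toAlgebra
  have : IsScalarTower k A B := IsScalarTower.of_algebraMap_eq fun c => (f.commutes c).symm
  refine (Submodule.Quotient.subsingleton_iff (p := N')).symm.trans
    (Iff.trans ?_ (subsingleton_tensor_iff (A := A) (B := B) (E.M ⧸ N)))
  exact (LinearEquiv.ofBijective _ (E.quotMap_bijective N N' h h')).toEquiv.subsingleton_congr.symm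

/-- **Vanishing after change of parameters is governed by the annihilator**: the bundle over `B`
is acyclic iff the annihilator of `H1` generates the unit ideal of `B`. -/
theorem acyclic_map_iff (E : Bdl C A) (f : A →ₐ[k] B) :
    (E.map f).Acyclic ↔ (Module.annihilator A E.H1).map f.toRingHom = ⊤ := by
  let := f.toRingHom.toAlgebra
  have : IsScalarTower k A B := IsScalarTower.of_algebraMap_eq fun c => (f.commutes c).symm
  have := E.finite_H1
  exact E.eq_top_iff_annihilator f (E.L0 ⊔ E.L1) _ (E.mapIn_mem_sup f) (E.L01_map_le (B := B))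

/-- Vanishing of the first cohomology is preserved by change of parameters. -/
theorem Acyclic.map {E : Bdl C A} (h : E.Acyclic) (f : A →ₐ[k] B) : (E.map f).Acyclic := by
  refine (E.acyclic_map_iff f).mpr ?_
  have := E.acyclic_iff_subsingleton.mp h
  rw [Module.annihilator_eq_top_iff.mpr inferInstance, Ideal.map_top]

/-- Over a field a prime containing the annihilator is the only obstruction. -/
theorem map_eq_top_field_iff {L : Type u} [Field L] [Algebra k L] (I : Ideal A) (f : A →ₐ[k] L) :
    I.map f.toRingHom = ⊤ ↔ ¬ I ≤ RingHom.ker f.toRingHom := by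
  rw [← not_iff_not, not_not, ← Ideal.map_eq_bot_iff_le_ker]
  exact ⟨fun h => (Ideal.eq_bot_or_top _).resolve_right h, fun h => h ▸ bot_ne_top⟩

/-- An ideal generating at every geometric point is the unit ideal. -/
theorem eq_top_of_forall_geometric (I : Ideal A)
    (h : ∀ (L : Type u) [Field L] [Algebra k L] [IsAlgClosed L] (f : A →ₐ[k] L),
      I.map f.toRingHom = ⊤) : I = ⊤ := by
  by_contra hne
  obtain ⟨m, hm, hle⟩ := Ideal.exists_le_maximal _ hne
  let : Field (A ⧸ m) := Ideal.Quotient.field m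
  let f : A →ₐ[k] AlgebraicClosure (A ⧸ m) :=
    (IsScalarTower.toAlgHom k (A ⧸ m) (AlgebraicClosure (A ⧸ m))).comp (Ideal.Quotient.mkₐ k m)
  refine (map_eq_top_field_iff I f).mp (h _ f) (hle.trans fun x hx => ?_)
  show algebraMap (A ⧸ m) _ (Ideal.Quotient.mk m x) = 0
  rw [Ideal.Quotient.eq_zero_iff_mem.mpr hx, map_zero]

/-- The first cohomology has finitely many generators over the parameters. -/
theorem exists_gen_H1 (E : Bdl C A) :
    ∃ (r : ℕ) (m : Fin r → E.M), ∀ x, ∃ c : Fin r → A, x - ∑ i, c i • m i ∈ E.L0 ⊔ E.L1 := by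
  have := E.finite_H1
  obtain ⟨r, g, hg⟩ := Module.Finite.exists_fin (R := A) (M := E.H1)
  choose m hm using fun i => Submodule.Quotient.mk_surjective _ (g i)
  refine ⟨r, m, fun x => ?_⟩
  obtain ⟨c, hc⟩ := (Submodule.mem_span_range_iff_exists_fun A).mp
    (hg ▸ trivial : (Submodule.Quotient.mk x : E.H1) ∈ Submodule.span A (Set.range g))
  refine ⟨c, ?_⟩
  rw [← Submodule.Quotient.mk_eq_zero, Submodule.Quotient.mk_sub, sub_eq_zero, ← hc]
  refine (Finset.sum_congr rfl fun i _ => ?_).trans (map_sum (E.L0 ⊔ E.L1).mkQ _ _).symm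
  rw [← hm i]; rfl

/-- A twist of high order is acyclic. -/
theorem exists_twist_acyclic (E : Bdl C A) : ∃ n, (E.twist n).Acyclic := by
  classical
  obtain ⟨r, m, hm⟩ := E.exists_gen_H1
  choose e he using fun i => E.exists_mem_L1 (m i)
  set n := Finset.univ.sup e
  let W : Submodule A E.M := E.L0 ⊔ (E.twist n).L1
  refine ⟨n, show W = ⊤ from eq_top_iff.mpr fun x _ => ?_⟩
  have hle : E.L0 ⊔ E.L1 ≤ W := sup_le le_sup_left (le_trans (fun y hy =>
    (mem_L1_twist E).mpr (by rw [← map_pow]; exact E.res1_smul_mem _ hy)) le_sup_right)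
  have hgen : ∀ i, m i ∈ W := fun i => Submodule.mem_sup_right ((mem_L1_twist E).mpr (by
    obtain ⟨j, hj⟩ := Nat.le.dest (Finset.le_sup (f := e) (Finset.mem_univ i))
    rw [show n = j + e i by omega, pow_add, mul_smul, ← map_pow]
    exact E.res1_smul_mem _ (he i)))
  obtain ⟨c, hd⟩ := hm x
  have := add_mem (hle hd) (sum_mem fun i (_ : i ∈ Finset.univ) => W.smul_mem (c i) (hgen i))
  rwa [sub_add_cancel] at this

/-- Twisting increases the second lattice. -/
theorem L1_twist_mono (E : Bdl C A) {n n' : ℕ} (h : n ≤ n') : (E.twist n).L1 ≤ (E.twist n').L1 :=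
  fun y hy => (mem_L1_twist E).mpr (by
    obtain ⟨j, rfl⟩ := Nat.le.dest h
    rw [add_comm, pow_add, mul_smul, ← map_pow]
    exact E.res1_smul_mem _ ((mem_L1_twist E).mp hy))

/-- Twists above an acyclic twist are acyclic. -/
theorem Acyclic.twist_le {E : Bdl C A} {n n' : ℕ} (h : (E.twist n).Acyclic) (hn : n ≤ n') :
    (E.twist n').Acyclic :=
  top_unique (h.ge.trans (sup_le_sup le_rfl (E.L1_twist_mono hn)))

end Bdl

end FermatAgent.Pic
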