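import Fermat.Agent.Pic.Coh.AcyclicAt

/-!
# The laws of bundles

Isomorphism classes of bundles form commutative groups, functorially in the parameters; isomorphic
bundles have isomorphic cohomology, hence the same degree.
-/

set_option autoImplicit false

noncomputable section

universe u

namespace FermatAgent.Pic

variable {k : Type u} [Field k] {C : Curve2 k}

namespace Bdl

variable {A : Type u} [CommRing A] [Algebra k A] {E E' : Bdl C A}

/-- Isomorphic bundles have the same global sections. -/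
def Iso.h0 (i : Iso E E') : E.H0 ≃ₗ[A] E'.H0 :=
  LinearEquiv.ofSubmodules (i.e.restrictScalars A) E.H0 E'.H0 (by
    ext m
    rw [Submodule.mem_map]
    constructor
    · rintro ⟨x, hx, rfl⟩; exact (i.map_H0 x).mpr hx
    · exact fun hm => ⟨i.e.symm m, (i.map_H0 _).mp (by rwa [i.e.apply_symm_apply]),
        i.e.apply_symm_apply m⟩)

/-- Isomorphic bundles have the same first cohomology. -/
def Iso.h1 (i : Iso E E') : E.H1 ≃ₗ[A] E'.H1 :=
  Submodule.Quotient.equiv (E.L0 ⊔ E.L1) (E'.L0 ⊔ E'.L1) (i.e.restrictScalars A) (by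
    rw [Submodule.map_sup]
    congr 1
    · ext m
      rw [Submodule.mem_map]
      constructor
      · rintro ⟨x, hx, rfl⟩; exact (i.map_L0 x).mpr hx
      · exact fun hm => ⟨i.e.symm m, (i.map_L0 _).mp (by rwa [i.e.apply_symm_apply]),
          i.e.apply_symm_apply m⟩
    · ext m
      rw [Submodule.mem_map]
      constructor
      · rintro ⟨x, hx, rfl⟩; exact (i.map_L1 x).mpr hx
      · exact fun hm => ⟨i.e.symm m, (i.map_L1 _).mp (by rwa [i.e.apply_symm_apply]),
          i.e.apply_symm_apply m⟩)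

/-- Isomorphic bundles have the same Euler characteristic. -/
theorem chi_congr {K : Type u} [Field K] [Algebra k K] {E E' : Bdl C K} (h : E ≈ E') :
    E.chi = E'.chi := by
  obtain ⟨i⟩ := h
  rw [chi, chi, i.h0.finrank_eq, i.h1.finrank_eq]

/-- Isomorphic bundles have the same degree. -/
theorem deg_congr {K : Type u} [Field K] [Algebra k K] {E E' : Bdl C K} (h : E ≈ E') :
    E.deg = E'.deg := by rw [deg, deg, chi_congr h]

/-- Having degree `d` is invariant under isomorphism. -/
theorem hasDeg_congr {d : ℤ} (h : E ≈ E') (hE : E.HasDeg d) : E'.HasDeg d := fun L _ _ _ f => by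
  obtain ⟨i⟩ := h
  rw [← deg_congr (⟨i.map f⟩ : E.map f ≈ E'.map f)]
  exact hE L f

/-- Having degree `d` is preserved by change of parameters. -/
theorem hasDeg_map {B : Type u} [CommRing B] [Algebra k B] (f : A →ₐ[k] B) {d : ℤ}
    (hE : E.HasDeg d) : (E.map f).HasDeg d := fun L _ _ _ g => by
  rw [deg_congr (⟨mapComp f g E⟩ : (E.map f).map g ≈ E.map (g.comp f))]
  exact hE L _

/-- The trivial bundle has degree zero. -/
theorem hasDeg_one : (one C A).HasDeg 0 := fun L _ _ _ f => by
  rw [deg_congr (⟨mapOne f⟩ : (one C A).map f ≈ one C L), deg, sub_self]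

/-! ### Isomorphism is compatible with the operations -/

variable {A' A'' : Type u} [CommRing A'] [Algebra k A'] [CommRing A''] [Algebra k A'']

protected theorem tensor_congr {F F' : Bdl C A} : E ≈ E' → F ≈ F' → E.tensor F ≈ E'.tensor F' :=
  fun ⟨i⟩ ⟨j⟩ => ⟨i.tensor j⟩

protected theorem dual_congr : E ≈ E' → E.dual ≈ E'.dual := fun ⟨i⟩ => ⟨i.dual⟩

protected theorem map_congr (f : A →ₐ[k] A') : E ≈ E' → E.map f ≈ E'.map f :=
  fun ⟨i⟩ => ⟨i.map f⟩

protected theorem tensor_dual (E : Bdl C A) : E.tensor E.dual ≈ one C A := ⟨tensorDual E⟩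

protected theorem map_id (E : Bdl C A) : E.map (AlgHom.id k A) ≈ E := ⟨mapId E⟩

protected theorem map_map (f : A →ₐ[k] A') (g : A' →ₐ[k] A'') (E : Bdl C A) :
    (E.map f).map g ≈ E.map (g.comp f) := ⟨mapComp f g E⟩

protected theorem map_tensor (f : A →ₐ[k] A') (E F : Bdl C A) :
    (E.tensor F).map f ≈ (E.map f).tensor (F.map f) := ⟨mapTensor f E F⟩

protected theorem map_dual (f : A →ₐ[k] A') (E : Bdl C A) : E.dual.map f ≈ (E.map f).dual :=
  ⟨mapDual f E⟩

end Bdl

end FermatAgent.Pic
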