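import Fermat.Agent.Pic.SectionMap
import Fermat.Agent.Pic.Quot
import Fermat.Agent.Pic.Coh.Fibre

/-!
# The divisor of a section in the fibres

If the functional of a section stays injective at every field, its map on global sections of
acyclic twists is injective modulo every maximal ideal, and the quotient by the divisor has
fibres of the expected dimension.
-/

set_option autoImplicit false

noncomputable section

universe u

open scoped TensorProduct

namespace FermatAgent.Pic

variable {k : Type u} [Field k] {C : Curve2 k} {A B : Type u} [CommRing A] [Algebra k A]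
  [CommRing B] [Algebra k B]

theorem Curve2.map01_smul_base (f : A →ₐ[k] B) (a : A) (s : C.S01 A) :
    C.map01 f (a • s) = f a • C.map01 f s := by
  rw [Algebra.smul_def, map_mul, Algebra.smul_def]
  congr 1

namespace Bdl

theorem funMap_mapIn (E : Bdl C A) (φ : Module.Dual (C.S01 A) E.M) (f : A →ₐ[k] B) (m : E.M) :
    E.funMap φ f (E.mapIn f m) = C.map01 f (φ m) := by
  let := (C.map01 f).toRingHom.toAlgebra
  show (φ m) • (1 : C.S01 B) = _
  rw [Algebra.smul_def, mul_one]
  rfl

variable [Algebra A B] [IsScalarTower k A B]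

local notation "φAB" => IsScalarTower.toAlgHom k A B

/-- The map of global sections stays injective where the functional does. -/
theorem baseChange_secMap_injective (E : Bdl C A) (σ : E.dual.H0) {n : ℕ}
    (hn : (E.twist n).Acyclic)
    (hinj : Function.Injective ((E.map φAB).secFun (E.secMapTo σ φAB))) :
    Function.Injective ((E.secMap σ n).baseChange B) := by
  let G0 : ((one C A).twist n).H0 →ₗ[A] C.S01 B :=
    { toFun := fun f => C.map01 φAB (f.1 : C.S01 A)
      map_add' := fun f g => map_add _ (f.1 : C.S01 A) g.1
      map_smul' := fun a f => (C.map01_smul_base φAB a (f.1 : C.S01 A)).trans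
        (algebraMap_smul B a (C.map01 φAB (f.1 : C.S01 A))) }
  let F : (E.map φAB).M →ₗ[C.S01 B] C.S01 B := E.funMap (E.secFun σ) φAB
  let V : B ⊗[A] (E.twist n).H0 →ₗ[B] (E.map φAB).M :=
    ((E.twist n).map φAB).H0.subtype ∘ₗ (E.twist n).h0Map
  have hV : Function.Injective V := fun x y h =>
    ((E.twist n).h0Map_bijective hn).1 (Subtype.ext h)
  have key : (G0.liftBaseChange B) ∘ₗ (E.secMap σ n).baseChange B =
      F.restrictScalars B ∘ₗ V := by
    refine TensorProduct.AlgebraTensorModule.ext fun b m => ?_
    show G0.liftBaseChange B (b ⊗ₜ[A] E.secMap σ n m) = F (b • E.mapIn φAB m.1)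
    rw [LinearMap.liftBaseChange_tmul, LinearMap.map_smul_of_tower]
    exact congrArg (b • ·) (E.funMap_mapIn (E.secFun σ) φAB m.1).symm
  intro x y h
  refine hV (hinj ?_)
  show F (V x) = F (V y)
  have hx := LinearMap.congr_fun key x
  have hy := LinearMap.congr_fun key y
  simp only [LinearMap.comp_apply, LinearMap.restrictScalars_apply] at hx hy
  rw [← hx, ← hy, h]

/-- The section does not vanish on any geometric fibre. -/
def FibrewiseInjective (E : Bdl C A) (σ : E.dual.H0) : Prop :=
  ∀ (K : Type u) [Field K] [Algebra k K] [IsAlgClosed K] (f : A →ₐ[k] K),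
    Function.Injective ((E.map f).secFun (E.secMapTo σ f))

/-- **The map of global sections is injective modulo every maximal ideal.** -/
theorem secMap_mem_smul {E : Bdl C A} {σ : E.dual.H0} (hfib : E.FibrewiseInjective σ) {n : ℕ}
    (hn : (E.twist n).Acyclic) (m : Ideal A) (hm : m.IsMaximal) (v : (E.twist n).H0)
    (hv : E.secMap σ n v ∈ m • (⊤ : Submodule A _)) : v ∈ m • (⊤ : Submodule A _) := by
  let : Field (A ⧸ m) := Ideal.Quotient.field m
  have := (E.twist n).projective_H0 hn
  let K := AlgebraicClosure (A ⧸ m)
  have hi := E.baseChange_secMap_injective σ hn (B := K) (hfib K (IsScalarTower.toAlgHom k A K))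
  have h0 : ∀ q ∈ m • (⊤ : Submodule A ((one C A).twist n).H0), (1 : K) ⊗ₜ[A] q = 0 := by
    intro q hq
    refine Submodule.smul_induction_on hq (fun a ha q _ => ?_) fun x y hx hy => by
      rw [TensorProduct.tmul_add, hx, hy, add_zero]
    rw [TensorProduct.tmul_smul, TensorProduct.smul_tmul',
      ← algebraMap_smul (A ⧸ m) a (1 : K), Ideal.Quotient.algebraMap_eq,
      Ideal.Quotient.eq_zero_iff_mem.mpr ha, zero_smul, TensorProduct.zero_tmul]
  have hz : (1 : K) ⊗ₜ[A] v = 0 := hi (by
    rw [LinearMap.baseChange_tmul, h0 _ hv, map_zero])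
  let ι : A ⧸ m →ₗ[A] K := (IsScalarTower.toAlgHom A (A ⧸ m) K).toLinearMap
  have hι : Function.Injective (ι.rTensor (E.twist n).H0) :=
    Module.Flat.rTensor_preserves_injective_linearMap ι (algebraMap (A ⧸ m) K).injective
  have hq : (1 : A ⧸ m) ⊗ₜ[A] v = 0 := hι (by
    rw [LinearMap.rTensor_tmul, map_zero]
    show (algebraMap (A ⧸ m) K 1) ⊗ₜ[A] v = 0
    rw [map_one, hz])
  have e := congrArg (TensorProduct.quotTensorEquivQuotSMul (E.twist n).H0 m) hq
  rw [map_zero, show (1 : A ⧸ m) = Ideal.Quotient.mk m 1 from (map_one _).symm,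
    TensorProduct.quotTensorEquivQuotSMul_mk_tmul, one_smul] at e
  exact (Submodule.Quotient.mk_eq_zero _).mp e

/-- The quotient by the divisor is finite projective. -/
theorem Generates.finite_projective_secI [IsAlgClosed k] {E : Bdl C A} {σ : E.dual.H0}
    (h : E.Generates σ) (hinj : Function.Injective (E.secFun σ))
    (hfib : E.FibrewiseInjective σ) {n : ℕ} (hn : (E.twist n).Acyclic)
    (hn1 : ((one C A).twist n).Acyclic) :
    Module.Finite A (C.S0 A ⧸ E.secI σ) ∧ Module.Projective A (C.S0 A ⧸ E.secI σ) := by
  have := (E.twist n).finite_H0 hn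
  have := (E.twist n).projective_H0 hn
  have := ((one C A).twist n).finite_H0 hn1
  have := ((one C A).twist n).projective_H0 hn1
  exact h.finite_projective_quot hinj hn (secMap_mem_smul hfib hn)

/-- **The fibre dimension of the quotient by the divisor** of a section is the difference of the
Euler characteristics of the twists of the trivial bundle and of the bundle at that field. -/
theorem Generates.finrank_tensor_quot [IsAlgClosed k] {K : Type u} [Field K] [Algebra k K]
    [Algebra A K] [IsScalarTower k A K] {E : Bdl C A} {σ : E.dual.H0} (h : E.Generates σ)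
    (hinj : Function.Injective (E.secFun σ)) {n : ℕ} (hn : (E.twist n).Acyclic)
    (hn1 : ((one C A).twist n).Acyclic)
    (hK : Function.Injective
      ((E.map (IsScalarTower.toAlgHom k A K)).secFun
        (E.secMapTo σ (IsScalarTower.toAlgHom k A K)))) :
    (Module.finrank K (K ⊗[A] (C.S0 A ⧸ E.secI σ)) : ℤ) =
      ((one C K).twist n).chi - ((E.map (IsScalarTower.toAlgHom k A K)).twist n).chi := by
  have := ((one C A).twist n).finite_H0 hn1
  have hi := E.baseChange_secMap_injective σ hn hK
  have hsurj : Function.Surjective ((E.toQuot σ n).baseChange K) :=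
    LinearMap.lTensor_surjective K (h.toQuot_surjective hn)
  have hker : LinearMap.ker ((E.toQuot σ n).baseChange K) =
      LinearMap.range ((E.secMap σ n).baseChange K) :=
    LinearMap.exact_iff.mp (show Function.Exact ((E.secMap σ n).baseChange K)
      ((E.toQuot σ n).baseChange K) from
        lTensor_exact K (h.exact_secMap hinj n) (h.toQuot_surjective hn))
  have e := LinearMap.finrank_range_add_finrank_ker ((E.toQuot σ n).baseChange K)
  rw [hker, LinearMap.range_eq_top.mpr hsurj, finrank_top,
    ← (LinearEquiv.ofInjective _ hi).finrank_eq] at e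
  have e1 := ((one C A).twist n).finrank_tensor_H0 (K := K) hn1
  have e2 := (E.twist n).finrank_tensor_H0 (K := K) hn
  rw [chi_congr (⟨(mapTwist _ (one C A) n).trans ((mapOne _).twist n)⟩ :
    ((one C A).twist n).map (IsScalarTower.toAlgHom k A K) ≈ (one C K).twist n)] at e1
  rw [chi_congr (⟨mapTwist _ E n⟩ : (E.twist n).map (IsScalarTower.toAlgHom k A K) ≈
    (E.map (IsScalarTower.toAlgHom k A K)).twist n)] at e2
  rw [← e1, ← e2, ← e]
  push_cast
  ring

/-- The fibre dimension of the quotient at a prime, from that at a geometric point above it. -/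
theorem Generates.finrank_residueField_quot [IsAlgClosed k] {E : Bdl C A} {σ : E.dual.H0}
    (h : E.Generates σ) (hinj : Function.Injective (E.secFun σ))
    (hfib : E.FibrewiseInjective σ) {n : ℕ} (hn : (E.twist n).Acyclic)
    (hn1 : ((one C A).twist n).Acyclic) {g : ℕ}
    (hchi : ∀ (K : Type u) [Field K] [Algebra k K] [IsAlgClosed K] (f : A →ₐ[k] K),
      ((one C K).twist n).chi - ((E.map f).twist n).chi = (g : ℤ))
    (p : Ideal A) [p.IsPrime] :
    Module.finrank p.ResidueField (p.ResidueField ⊗[A] (C.S0 A ⧸ E.secI σ)) = g := by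
  let K := AlgebraicClosure p.ResidueField
  let κ := p.ResidueField
  have e := h.finrank_tensor_quot (K := K) hinj hn hn1 (hfib K _)
  rw [hchi K] at e
  rw [← Module.finrank_baseChange (R := K),
    (TensorProduct.AlgebraTensorModule.cancelBaseChange A κ K K (C.S0 A ⧸ E.secI σ)).finrank_eq]
  exact_mod_cast e

end Bdl

end FermatAgent.Pic
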